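import Fermat.Agent.S36.Norm.Along

set_option autoImplicit false
set_option linter.unusedSectionVars false

/-!
# S36 / Norm / Five : killing the vertical valuations and the abelian part by norms

Three-branch context: `F' = F_{qM}`, `F = F_{q²M}`, `α` = inclusion, `β = V_q`;
`Vi', V0'` the two branches of `F'`, `Vi, Vm, V0` the three branches of `F`.

* `(α, Vi')` : `Vi (1,1)`, `Vm (q-1,1)`   (`Split`);   `(α, V0')` : `V0 (1,q)`   (`Rad`);
* `(β, Vi')` : `Vi (1,q)`   (`Rad`);   `(β, V0')` : `V0 (1,1)`, `Vm (q-1,1)`   (`Split`).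

**Theorem** `Ctx3.five`: if `N_α u` and `N_β u` are (constant) * (`m`-th power), `gcd(m, q) = 1`, then
`u ^ ((q+1)(q-1)) = c * g ^ m * u₁` with `c` a constant and `u₁` near constants at the three branches;
`Ctx3.five_one`: `u₁ ≡ 1` at the three branches if the units of `RK` are `m`-th powers modulo `𝔪`.
-/

noncomputable section

namespace Fermat.Agent.S36.Norm

section aux
variable {L : Type*} [Field L] {V : ValuationSubring L}

theorem HasOrd.change {π t z : L} {k e : ℤ} (ht : t ≠ 0) (hπ : π ≠ 0) (hz : HasOrd V π z k)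
    (hπt : HasOrd V t π e) : HasOrd V t z (k * e) := by
  have h1 : HasOrd V t (π ^ k) (k * e) := hπt.zpow ht k
  have h2 : HasOrd V t (z / π ^ k) 0 :=
    hasOrd_zero_iff.2 ⟨div_ne_zero hz.1 (zpow_ne_zero _ hπ), hz.2.1, by rw [inv_div]; exact hz.2.2⟩
  have h3 := h2.mul ht h1
  rwa [div_mul_cancel₀ _ (zpow_ne_zero _ hπ), zero_add] at h3

/-- weak approximation for three valuation subrings. -/
theorem exists_near3 {V1 V2 V3 : ValuationSubring L} {π1 π2 π3 : L} (h1 : IsUnif V1 π1)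
    (h2 : IsUnif V2 π2) (h3 : IsUnif V3 π3) (h12 : V1 ≠ V2) (h13 : V1 ≠ V3) (h23 : V2 ≠ V3)
    {z1 z2 z3 : L} (hz1 : z1 ≠ 0) (hz2 : z2 ≠ 0) (hz3 : z3 ≠ 0) :
    ∃ y : L, Near V1 y z1 ∧ Near V2 y z2 ∧ Near V3 y z3 := by
  have hV : Function.Injective ![V1, V2, V3] := by
    intro i j hij
    fin_cases i <;> fin_cases j <;> first | rfl | (exfalso; simp at hij; first | exact h12 hij | exact h13 hij | exact h23 hij | exact h12 hij.symm | exact h13 hij.symm | exact h23 hij.symm)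
  obtain ⟨y, hy⟩ := exists_near ![V1, V2, V3] ![π1, π2, π3]
    (by intro i; fin_cases i <;> simpa) hV ![z1, z2, z3] (by intro i; fin_cases i <;> simpa)
  exact ⟨y, hy 0, hy 1, hy 2⟩

theorem exists_hasOrd3 {V1 V2 V3 : ValuationSubring L} {π1 π2 π3 : L} (h1 : IsUnif V1 π1)
    (h2 : IsUnif V2 π2) (h3 : IsUnif V3 π3) (h12 : V1 ≠ V2) (h13 : V1 ≠ V3) (h23 : V2 ≠ V3)
    (k1 k2 k3 : ℤ) : ∃ y : L, HasOrd V1 π1 y k1 ∧ HasOrd V2 π2 y k2 ∧ HasOrd V3 π3 y k3 := by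
  obtain ⟨y, hy1, hy2, hy3⟩ := exists_near3 h1 h2 h3 h12 h13 h23 (zpow_ne_zero k1 h1.ne_zero)
    (zpow_ne_zero k2 h2.ne_zero) (zpow_ne_zero k3 h3.ne_zero)
  exact ⟨y, (hasOrd_zpow h1.ne_zero k1).of_near hy1, (hasOrd_zpow h2.ne_zero k2).of_near hy2,
    (hasOrd_zpow h3.ne_zero k3).of_near hy3⟩

end aux

variable {K F' F : Type*} [Field K] [Field F'] [CharZero F'] [Algebra K F'] [Field F] [Algebra K F]

/-- the three-branch context. -/
structure Ctx3 (q : ℕ) (RK : ValuationSubring K) (ϖ : K) (α β : F' →+* F)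
    (Vi' V0' : ValuationSubring F') (Vi Vm V0 : ValuationSubring F) (t tα tβ : F) (yα yβ : F') :
    Prop where
  hq : q.Prime
  map_α : ∀ c : K, α (algebraMap K F' c) = algebraMap K F c
  map_β : ∀ c : K, β (algebraMap K F' c) = algebraMap K F c
  unifK : IsUnif RK ϖ
  comap_i : Vi'.comap (algebraMap K F') = RK
  comap_0 : V0'.comap (algebraMap K F') = RK
  ne' : Vi' ≠ V0'
  split_α : SplitAlong α q Vi' (algebraMap K F' ϖ) Vi Vm t
  rad_α : RadAlong α q V0' (algebraMap K F' ϖ) V0 tα yα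
  rad_β : RadAlong β q Vi' (algebraMap K F' ϖ) Vi tβ yβ
  split_β : SplitAlong β q V0' (algebraMap K F' ϖ) V0 Vm t

/-- the norm of `u` along `φ` is a constant times an `m`-th power. -/
def NC (K : Type*) {F' F : Type*} [Field K] [Field F'] [Algebra K F'] [Field F] (φ : F' →+* F) (m : ℕ)
    (u : F) : Prop :=
  ∃ (a : K) (w : F'), a ≠ 0 ∧ normAlong φ u = algebraMap K F' a * w ^ m

omit [CharZero F'] [Algebra K F] in
theorem NC.mul {φ : F' →+* F} {m : ℕ} {u v : F} (hu : NC K φ m u) (hv : NC K φ m v) :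
    NC K φ m (u * v) := by
  obtain ⟨a, w, ha, hw⟩ := hu
  obtain ⟨b, x, hb, hx⟩ := hv
  refine ⟨a * b, w * x, mul_ne_zero ha hb, ?_⟩
  rw [map_mul, hw, hx, map_mul, mul_pow]
  ring

omit [CharZero F'] [Algebra K F] in
theorem NC.pow {φ : F' →+* F} {m : ℕ} {u : F} (hu : NC K φ m u) (n : ℕ) : NC K φ m (u ^ n) := by
  obtain ⟨a, w, ha, hw⟩ := hu
  refine ⟨a ^ n, w ^ n, pow_ne_zero _ ha, ?_⟩
  rw [map_pow, hw, map_pow, mul_pow, ← pow_mul, ← pow_mul, mul_comm m n]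

omit [CharZero F'] [Algebra K F] in
theorem nc_pow (φ : F' →+* F) (m : ℕ) (g : F) : NC K φ m (g ^ m) :=
  ⟨1, normAlong φ g, one_ne_zero, by rw [map_pow, map_one, one_mul]⟩

variable {q : ℕ} {RK : ValuationSubring K} {ϖ : K} {α β : F' →+* F}
  {Vi' V0' : ValuationSubring F'} {Vi Vm V0 : ValuationSubring F} {t tα tβ : F} {yα yβ : F'}

/-- the units of `RK` are `m`-th powers modulo the maximal ideal. -/
def RootsMod (RK : ValuationSubring K) (ϖ : K) (m : ℕ) : Prop :=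
  ∀ c : K, HasOrd RK ϖ c 0 → ∃ d : K, Near RK (d ^ m) c

namespace Ctx3

variable (h : Ctx3 q RK ϖ α β Vi' V0' Vi Vm V0 t tα tβ yα yβ)
include h

theorem two_le : 2 ≤ q := h.hq.two_le

theorem unif_i : IsUnif Vi (algebraMap K F ϖ) := by
  have := h.split_α.unif_a h.two_le
  rwa [h.map_α] at this

theorem unif_m : IsUnif Vm t := h.split_α.unif_b h.two_le

theorem unif_0 : IsUnif V0 (algebraMap K F ϖ) := by
  have := h.split_β.unif_a h.two_le
  rwa [h.map_β] at this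

theorem unif_i' : IsUnif Vi' (algebraMap K F' ϖ) := h.split_α.unif

theorem unif_0' : IsUnif V0' (algebraMap K F' ϖ) := h.split_β.unif

theorem ne_im : Vi ≠ Vm := h.split_α.ne

theorem ne_m0 : Vm ≠ V0 := h.split_β.ne.symm

theorem ne_i0 : Vi ≠ V0 := fun e => h.ne' (by rw [← h.split_α.comap_a, ← h.rad_α.comap, e])

theorem ord_m : HasOrd Vm t (algebraMap K F ϖ) ((q : ℤ) - 1) := by
  have := h.split_α.ord_b h.two_le
  rwa [h.map_α] at this

theorem comapF_i : Vi.comap (algebraMap K F) = RK := by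
  rw [← h.comap_i, ← h.split_α.comap_a, ValuationSubring.comap_comap]
  congr 1
  ext c
  exact (h.map_α c).symm

theorem comapF_m : Vm.comap (algebraMap K F) = RK := by
  rw [← h.comap_i, ← h.split_α.comap_b, ValuationSubring.comap_comap]
  congr 1
  ext c
  exact (h.map_α c).symm

theorem comapF_0 : V0.comap (algebraMap K F) = RK := by
  rw [← h.comap_0, ← h.rad_α.comap, ValuationSubring.comap_comap]
  congr 1
  ext c
  exact (h.map_α c).symm

theorem const_i' {c : K} {k : ℤ} (hc : HasOrd RK ϖ c k) :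
    HasOrd Vi' (algebraMap K F' ϖ) (algebraMap K F' c) k := by
  rw [← h.comap_i] at hc
  exact (hasOrd_comap_iff _ _ _ _ _).1 hc

theorem const_0' {c : K} {k : ℤ} (hc : HasOrd RK ϖ c k) :
    HasOrd V0' (algebraMap K F' ϖ) (algebraMap K F' c) k := by
  rw [← h.comap_0] at hc
  exact (hasOrd_comap_iff _ _ _ _ _).1 hc

theorem const_i {c : K} {k : ℤ} (hc : HasOrd RK ϖ c k) :
    HasOrd Vi (algebraMap K F ϖ) (algebraMap K F c) k := by
  rw [← h.comapF_i] at hc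
  exact (hasOrd_comap_iff _ _ _ _ _).1 hc

theorem const_0 {c : K} {k : ℤ} (hc : HasOrd RK ϖ c k) :
    HasOrd V0 (algebraMap K F ϖ) (algebraMap K F c) k := by
  rw [← h.comapF_0] at hc
  exact (hasOrd_comap_iff _ _ _ _ _).1 hc

theorem const_m {c : K} {k : ℤ} (hc : HasOrd RK ϖ c k) :
    HasOrd Vm t (algebraMap K F c) (k * ((q : ℤ) - 1)) := by
  rw [← h.comapF_m] at hc
  exact ((hasOrd_comap_iff _ _ _ _ _).1 hc).change h.unif_m.ne_zero h.unif_i.ne_zero h.ord_m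

theorem nc_const_α (m : ℕ) {c : K} (hc : c ≠ 0) : NC K α m (algebraMap K F c) :=
  ⟨c ^ q, 1, pow_ne_zero _ hc, by
    rw [← h.map_α, h.split_α.norm_map h.two_le, one_pow, mul_one, map_pow]⟩

theorem nc_const_β (m : ℕ) {c : K} (hc : c ≠ 0) : NC K β m (algebraMap K F c) :=
  ⟨c ^ q, 1, pow_ne_zero _ hc, by
    rw [← h.map_β, h.split_β.norm_map h.two_le, one_pow, mul_one, map_pow]⟩

/-- **Step 1**: kill the three vertical valuations. -/
theorem step1 {m : ℕ} (hm : m ≠ 0) {u : F} (hu : u ≠ 0) (hα : NC K α m u) (hβ : NC K β m u) :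
    ∃ (c : K) (g : F), c ≠ 0 ∧ g ≠ 0 ∧
      HasOrd Vi (algebraMap K F ϖ) (u ^ (q + 1) * algebraMap K F c * g ^ m) 0 ∧
      HasOrd Vm t (u ^ (q + 1) * algebraMap K F c * g ^ m) 0 ∧
      HasOrd V0 (algebraMap K F ϖ) (u ^ (q + 1) * algebraMap K F c * g ^ m) 0 := by
  have hϖF : algebraMap K F ϖ ≠ 0 := h.unif_i.ne_zero
  have hϖ' : algebraMap K F' ϖ ≠ 0 := h.unif_i'.ne_zero
  have ht : t ≠ 0 := h.unif_m.ne_zero
  obtain ⟨ai, hai⟩ := h.unif_i.exists_ord u hu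
  obtain ⟨am, ham⟩ := h.unif_m.exists_ord u hu
  obtain ⟨a0, ha0⟩ := h.unif_0.exists_ord u hu
  obtain ⟨a, w, ha, hw⟩ := hα
  obtain ⟨a', w', ha', hw'⟩ := hβ
  have hNi : HasOrd Vi' (algebraMap K F' ϖ) (normAlong α u) (ai + am) :=
    h.split_α.norm_ord h.two_le (by rw [h.map_α]; exact hai) ham
  have hN0 : HasOrd V0' (algebraMap K F' ϖ) (normAlong α u) (q * a0) :=
    h.rad_α.norm_ord h.hq (by rw [h.map_α]; exact ha0)
  have hNi' : HasOrd Vi' (algebraMap K F' ϖ) (normAlong β u) (q * ai) :=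
    h.rad_β.norm_ord h.hq (by rw [h.map_β]; exact hai)
  have hN0' : HasOrd V0' (algebraMap K F' ϖ) (normAlong β u) (a0 + am) :=
    h.split_β.norm_ord h.two_le (by rw [h.map_β]; exact ha0) ham
  have hw0 : w ≠ 0 := by
    rintro rfl
    apply hNi.1
    rw [hw, zero_pow hm, mul_zero]
  have hw0' : w' ≠ 0 := by
    rintro rfl
    apply hNi'.1
    rw [hw', zero_pow hm, mul_zero]
  obtain ⟨k, hk⟩ := h.unifK.exists_ord a ha
  obtain ⟨k', hk'⟩ := h.unifK.exists_ord a' ha'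
  obtain ⟨b1, hb1⟩ := h.unif_i'.exists_ord w hw0
  obtain ⟨b2, hb2⟩ := h.unif_0'.exists_ord w hw0
  obtain ⟨b3, hb3⟩ := h.unif_i'.exists_ord w' hw0'
  obtain ⟨b4, hb4⟩ := h.unif_0'.exists_ord w' hw0'
  have e1 : ai + am = k + m * b1 :=
    hNi.unique h.unif_i'.mem hϖ' (by rw [hw]; exact (h.const_i' hk).mul hϖ' (hb1.pow hϖ' m))
  have e2 : q * a0 = k + m * b2 :=
    hN0.unique h.unif_0'.mem hϖ' (by rw [hw]; exact (h.const_0' hk).mul hϖ' (hb2.pow hϖ' m))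
  have e3 : q * ai = k' + m * b3 :=
    hNi'.unique h.unif_i'.mem hϖ' (by rw [hw']; exact (h.const_i' hk').mul hϖ' (hb3.pow hϖ' m))
  have e4 : a0 + am = k' + m * b4 :=
    hN0'.unique h.unif_0'.mem hϖ' (by rw [hw']; exact (h.const_0' hk').mul hϖ' (hb4.pow hϖ' m))
  set Bi : ℤ := b1 - b2 + b3 - b4 with hBi
  set Bm : ℤ := (q + 1) * (b1 - b2) - Bi with hBm
  obtain ⟨g, hgi, hgm, hg0⟩ := exists_hasOrd3 h.unif_i h.unif_m h.unif_0 h.ne_im h.ne_i0 h.ne_m0
    (-Bi) (-Bm) 0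
  have hc : HasOrd RK ϖ (ϖ ^ (-((q : ℤ) + 1) * a0)) (-((q : ℤ) + 1) * a0) :=
    hasOrd_zpow h.unifK.ne_zero _
  refine ⟨ϖ ^ (-((q : ℤ) + 1) * a0), g, zpow_ne_zero _ h.unifK.ne_zero, hgi.1, ?_, ?_, ?_⟩
  · have := ((hai.pow hϖF (q + 1)).mul hϖF (h.const_i hc)).mul hϖF (hgi.pow hϖF m)
    convert this using 1
    push_cast
    linear_combination (-1 : ℤ) * (e1 - e2 + e3 - e4)
  · have := ((ham.pow ht (q + 1)).mul ht (h.const_m hc)).mul ht (hgm.pow ht m)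
    convert this using 1
    push_cast
    linear_combination (-((q : ℤ) + 1)) * (e1 - e2) + (e1 - e2 + e3 - e4)
  · have := ((ha0.pow hϖF (q + 1)).mul hϖF (h.const_0 hc)).mul hϖF (hg0.pow hϖF m)
    convert this using 1
    push_cast
    ring

theorem m_ne_zero {m : ℕ} (hmq : Nat.Coprime m q) : m ≠ 0 := by
  rintro rfl
  rw [Nat.coprime_zero_left] at hmq
  exact h.hq.one_lt.ne' hmq

/-- from `u^q ≈ a * x^m` and `gcd(m, q) = 1`: `u ≈ c * z^m`. -/
theorem bezout_near {V : ValuationSubring F} {m : ℕ} (hmq : Nat.Coprime m q) {u x : F} {a : K}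
    (ha0 : HasOrd RK ϖ a 0) (hu : u ≠ 0) (hn : Near V (u ^ q) (algebraMap K F a * x ^ m)) :
    ∃ (c : K) (z : F), HasOrd RK ϖ c 0 ∧ z ≠ 0 ∧ Near V u (algebraMap K F c * z ^ m) := by
  have hm := h.m_ne_zero hmq
  have hax := hn.right_ne
  have hx : x ≠ 0 := by
    rintro rfl
    rw [zero_pow hm, mul_zero] at hax
    exact hax rfl
  have hb : (q : ℤ) * Int.gcdA q m + (m : ℤ) * Int.gcdB q m = 1 := by
    have := Int.gcd_eq_gcd_ab q m
    rw [Int.gcd_natCast_natCast, Nat.Coprime.symm hmq] at this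
    exact_mod_cast this.symm
  set r := Int.gcdA q m
  set s := Int.gcdB q m
  refine ⟨a ^ r, x ^ r * u ^ s, by simpa using ha0.zpow h.unifK.ne_zero r,
    mul_ne_zero (zpow_ne_zero _ hx) (zpow_ne_zero _ hu), ?_⟩
  have h1 := (hn.zpow r).mul (Near.refl (V := V) (pow_ne_zero m (zpow_ne_zero s hu)))
  have e1 : (u ^ q) ^ r * (u ^ s) ^ m = u := by
    rw [← zpow_natCast, ← zpow_natCast, ← zpow_mul, ← zpow_mul, ← zpow_add₀ hu, mul_comm s, hb,
      zpow_one]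
  have e2 : (algebraMap K F a * x ^ m) ^ r * (u ^ s) ^ m =
      algebraMap K F (a ^ r) * (x ^ r * u ^ s) ^ m := by
    rw [mul_zpow, map_zpow₀, mul_pow, ← zpow_natCast x m, ← zpow_natCast (x ^ r) m, ← zpow_mul,
      ← zpow_mul, mul_comm (m : ℤ) r, mul_assoc]
  rwa [e1, e2] at h1

/-- if the norm has order `0` at `Vi'`, the constant can be taken to be a unit. -/
theorem nc_unit {φ : F' →+* F} {m : ℕ} (hm : m ≠ 0) {u : F}
    (hN : HasOrd Vi' (algebraMap K F' ϖ) (normAlong φ u) 0) (hnc : NC K φ m u) :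
    ∃ (a : K) (w : F'), HasOrd RK ϖ a 0 ∧ normAlong φ u = algebraMap K F' a * w ^ m := by
  obtain ⟨a, w, ha, hw⟩ := hnc
  have hϖ' : algebraMap K F' ϖ ≠ 0 := h.unif_i'.ne_zero
  have hϖ : ϖ ≠ 0 := h.unifK.ne_zero
  have hw0 : w ≠ 0 := by
    rintro rfl
    apply hN.1
    rw [hw, zero_pow hm, mul_zero]
  obtain ⟨k, hk⟩ := h.unifK.exists_ord a ha
  obtain ⟨b, hb⟩ := h.unif_i'.exists_ord w hw0
  have e : (0 : ℤ) = k + m * b :=
    hN.unique h.unif_i'.mem hϖ' (by rw [hw]; exact (h.const_i' hk).mul hϖ' (hb.pow hϖ' m))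
  refine ⟨a * ϖ ^ (-k), w * algebraMap K F' ϖ ^ (-b), ?_, ?_⟩
  · have := hk.mul hϖ (hasOrd_zpow (V := RK) hϖ (-k))
    rwa [add_neg_cancel] at this
  · have hk' : -k = m * b := by omega
    rw [hw, map_mul, map_zpow₀, mul_pow, hk', ← zpow_natCast (algebraMap K F' ϖ ^ (-b)) m, ← zpow_mul,
      mul_mul_mul_comm, ← zpow_add₀ hϖ']
    have : (m : ℤ) * b + -b * m = 0 := by ring
    rw [this, zpow_zero, mul_one]

/-- **Step 2**: reductions. -/
theorem step2 {m : ℕ} (hmq : Nat.Coprime m q) {u : F}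
    (hui : HasOrd Vi (algebraMap K F ϖ) u 0) (hum : HasOrd Vm t u 0)
    (hα : NC K α m u) (hβ : NC K β m u) :
    ∃ (ci cm c0 : K) (g : F), HasOrd RK ϖ ci 0 ∧ HasOrd RK ϖ cm 0 ∧ HasOrd RK ϖ c0 0 ∧ g ≠ 0 ∧
      Near Vi (u ^ (q - 1) * g ^ m) (algebraMap K F ci) ∧
      Near Vm (u ^ (q - 1) * g ^ m) (algebraMap K F cm) ∧
      Near V0 (u ^ (q - 1) * g ^ m) (algebraMap K F c0) := by
  have hu : u ≠ 0 := hui.1
  have hm := h.m_ne_zero hmq
  have hNα : HasOrd Vi' (algebraMap K F' ϖ) (normAlong α u) 0 := by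
    have := h.split_α.norm_ord h.two_le (u := u) (by rw [h.map_α]; exact hui) hum
    rwa [add_zero] at this
  have hNβ : HasOrd Vi' (algebraMap K F' ϖ) (normAlong β u) 0 := by
    have := h.rad_β.norm_ord h.hq (u := u) (by rw [h.map_β]; exact hui)
    rwa [mul_zero] at this
  obtain ⟨a, w, ha, hw⟩ := h.nc_unit hm hNα hα
  obtain ⟨a', w', ha', hw'⟩ := h.nc_unit hm hNβ hβ
  -- `V0` via `α`
  have h0 : Near V0 (u ^ q) (algebraMap K F a * α w ^ m) := by
    have := h.rad_α.near_pow_norm h.hq hu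
    rwa [hw, map_mul, map_pow, h.map_α] at this
  obtain ⟨c0, z0, hc0, hz0, hn0⟩ := h.bezout_near hmq ha hu h0
  -- `Vi` via `β`
  have hi : Near Vi (u ^ q) (algebraMap K F a' * β w' ^ m) := by
    have := h.rad_β.near_pow_norm h.hq hu
    rwa [hw', map_mul, map_pow, h.map_β] at this
  obtain ⟨ci, zi, hci, hzi, hni⟩ := h.bezout_near hmq ha' hu hi
  -- `Vm` via `α`
  obtain ⟨ya, hya⟩ := h.split_α.near_a h.two_le hu
  obtain ⟨yb, hyb⟩ := h.split_α.near_b h.two_le (z := u) (k := 0) (by rwa [mul_zero])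
  obtain ⟨z', hz'⟩ := h.split_α.near_a h.two_le hzi
  have hN : Near Vi' (normAlong α u) (ya * yb ^ (q - 1)) := h.split_α.norm_near h.two_le hya hyb
  have hya0 : ya ≠ 0 := fun e => hya.right_ne (by rw [e, map_zero])
  have hyb0 : yb ≠ 0 := fun e => hyb.right_ne (by rw [e, map_zero])
  have hz'0 : z' ≠ 0 := fun e => hz'.right_ne (by rw [e, map_zero])
  have hciF : algebraMap K F ci ≠ 0 := (map_ne_zero _).2 hci.1
  -- `ya ≈ ci * z'^m` at `Vi'`
  have hY : Near Vi' ya (algebraMap K F' ci * z' ^ m) := by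
    rw [← h.split_α.comap_a, near_comap_iff, map_mul, map_pow, h.map_α]
    exact (hya.symm.trans hni).trans ((Near.refl hciF).mul (hz'.pow m))
  -- `yb^(q-1) ≈ N / (ci z'^m)` at `Vi'`
  have hB : Near Vi' (yb ^ (q - 1)) (normAlong α u / (algebraMap K F' ci * z' ^ m)) := by
    have h1 : Near Vi' (normAlong α u / ya) (ya * yb ^ (q - 1) / ya) := hN.div (Near.refl hya0)
    rw [mul_div_cancel_left₀ _ hya0] at h1
    exact h1.symm.trans ((Near.refl hN.left_ne).div hY)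
  have hm' : Near Vm (u ^ (q - 1)) (algebraMap K F (a / ci) * α (w / z') ^ m) := by
    have h1 : Near Vm (α (yb ^ (q - 1))) (α (normAlong α u / (algebraMap K F' ci * z' ^ m))) := by
      rw [← near_comap_iff, h.split_α.comap_b]
      exact hB
    have h2 : Near Vm (u ^ (q - 1)) (α (yb ^ (q - 1))) := by
      rw [map_pow]
      exact hyb.pow _
    have e : α (normAlong α u / (algebraMap K F' ci * z' ^ m)) =
        algebraMap K F (a / ci) * α (w / z') ^ m := by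
      rw [hw, map_div₀, map_mul, map_mul, map_pow, map_pow, h.map_α, h.map_α, map_div₀, map_div₀,
        div_pow, mul_div_mul_comm]
    rw [e] at h1
    exact h2.trans h1
  have hw0 : w ≠ 0 := by
    rintro rfl
    apply hN.left_ne
    rw [hw, zero_pow hm, mul_zero]
  have hzm : α (w / z') ≠ 0 := (map_ne_zero _).2 (div_ne_zero hw0 hz'0)
  have hϖ : ϖ ≠ 0 := h.unifK.ne_zero
  -- weak approximation
  obtain ⟨g, hgi, hgm, hg0⟩ := exists_near3 h.unif_i h.unif_m h.unif_0 h.ne_im h.ne_i0 h.ne_m0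
    (inv_ne_zero (pow_ne_zero (q - 1) hzi)) (inv_ne_zero hzm) (inv_ne_zero (pow_ne_zero (q - 1) hz0))
  refine ⟨ci ^ (q - 1), a / ci, c0 ^ (q - 1), g, by simpa using hci.pow hϖ (q - 1),
    by simpa using ha.div hϖ hci, by simpa using hc0.pow hϖ (q - 1), hgi.left_ne, ?_, ?_, ?_⟩
  · have := (hni.pow (q - 1)).mul (hgi.pow m)
    have e : (algebraMap K F ci * zi ^ m) ^ (q - 1) * ((zi ^ (q - 1))⁻¹) ^ m =
        algebraMap K F (ci ^ (q - 1)) := by
      rw [mul_pow, map_pow, inv_pow, ← pow_mul, ← pow_mul, mul_comm m, mul_assoc,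
        mul_inv_cancel₀ (pow_ne_zero _ hzi), mul_one]
    rwa [e] at this
  · have := hm'.mul (hgm.pow m)
    have e : algebraMap K F (a / ci) * α (w / z') ^ m * ((α (w / z'))⁻¹) ^ m =
        algebraMap K F (a / ci) := by
      rw [inv_pow, mul_assoc, mul_inv_cancel₀ (pow_ne_zero _ hzm), mul_one]
    rwa [e] at this
  · have := (hn0.pow (q - 1)).mul (hg0.pow m)
    have e : (algebraMap K F c0 * z0 ^ m) ^ (q - 1) * ((z0 ^ (q - 1))⁻¹) ^ m =
        algebraMap K F (c0 ^ (q - 1)) := by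
      rw [mul_pow, map_pow, inv_pow, ← pow_mul, ← pow_mul, mul_comm m, mul_assoc,
        mul_inv_cancel₀ (pow_ne_zero _ hz0), mul_one]
    rwa [e] at this

/-- **(5)**: `u ^ ((q+1)(q-1)) = c * g ^ m * u₁` with `u₁` near unit constants at the three branches. -/
theorem five {m : ℕ} (hmq : Nat.Coprime m q) {u : F} (hu : u ≠ 0) (hα : NC K α m u)
    (hβ : NC K β m u) :
    ∃ (c ci cm c0 : K) (g u₁ : F), c ≠ 0 ∧ HasOrd RK ϖ ci 0 ∧ HasOrd RK ϖ cm 0 ∧ HasOrd RK ϖ c0 0 ∧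
      g ≠ 0 ∧ u ^ ((q + 1) * (q - 1)) = algebraMap K F c * g ^ m * u₁ ∧
      Near Vi u₁ (algebraMap K F ci) ∧ Near Vm u₁ (algebraMap K F cm) ∧
      Near V0 u₁ (algebraMap K F c0) := by
  have hm := h.m_ne_zero hmq
  obtain ⟨c1, g1, hc1, hg1, hoi, hom, -⟩ := h.step1 hm hu hα hβ
  have hα2 : NC K α m (u ^ (q + 1) * algebraMap K F c1 * g1 ^ m) :=
    ((hα.pow _).mul (h.nc_const_α m hc1)).mul (nc_pow α m g1)
  have hβ2 : NC K β m (u ^ (q + 1) * algebraMap K F c1 * g1 ^ m) :=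
    ((hβ.pow _).mul (h.nc_const_β m hc1)).mul (nc_pow β m g1)
  obtain ⟨ci, cm, c0, g2, hci, hcm, hc0, hg2, hni, hnm, hn0⟩ := h.step2 hmq hoi hom hα2 hβ2
  have hc1F : algebraMap K F c1 ≠ 0 := (map_ne_zero _).2 hc1
  refine ⟨(c1 ^ (q - 1))⁻¹, ci, cm, c0, (g1 ^ (q - 1) * g2)⁻¹, _, inv_ne_zero (pow_ne_zero _ hc1),
    hci, hcm, hc0, inv_ne_zero (mul_ne_zero (pow_ne_zero _ hg1) hg2), ?_, hni, hnm, hn0⟩
  rw [map_inv₀, map_pow, pow_mul, inv_pow, mul_pow, mul_pow, mul_pow, ← pow_mul g1,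
    ← pow_mul g1, mul_comm m (q - 1)]
  have h1 : algebraMap K F c1 ^ (q - 1) ≠ 0 := pow_ne_zero _ hc1F
  have h2 : g1 ^ ((q - 1) * m) ≠ 0 := pow_ne_zero _ hg1
  have h3 : g2 ^ m ≠ 0 := pow_ne_zero _ hg2
  field_simp

/-- **(5)**, final form: if the units of `RK` are `m`-th powers modulo the maximal ideal, then
`u ^ ((q+1)(q-1)) = c * g ^ m * u₁` with `u₁ ≡ 1` at the three branches. -/
theorem five_one {m : ℕ} (hmq : Nat.Coprime m q) (hroot : RootsMod RK ϖ m) {u : F} (hu : u ≠ 0)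
    (hα : NC K α m u) (hβ : NC K β m u) :
    ∃ (c : K) (g u₁ : F), c ≠ 0 ∧ g ≠ 0 ∧ u ^ ((q + 1) * (q - 1)) = algebraMap K F c * g ^ m * u₁ ∧
      u₁ - 1 ∈ Vi.nonunits ∧ u₁ - 1 ∈ Vm.nonunits ∧ u₁ - 1 ∈ V0.nonunits := by
  obtain ⟨c, ci, cm, c0, g, u₁, hc, hci, hcm, hc0, hg, hu₁, hni, hnm, hn0⟩ := h.five hmq hu hα hβ
  obtain ⟨di, hdi⟩ := hroot ci hci
  obtain ⟨dm, hdm⟩ := hroot cm hcm
  obtain ⟨d0, hd0⟩ := hroot c0 hc0
  have key : ∀ {V : ValuationSubring F} {d c' : K} {g' : F}, V.comap (algebraMap K F) = RK →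
      Near RK (d ^ m) c' → Near V u₁ (algebraMap K F c') → Near V g' (algebraMap K F d)⁻¹ →
      u₁ * g' ^ m - 1 ∈ V.nonunits := by
    intro V d c' g' hV hd hn hg'
    rw [← near_one_iff]
    rw [← hV, near_comap_iff, map_pow] at hd
    have h1 := (hn.trans hd.symm).mul (hg'.pow m)
    have hd0 : algebraMap K F d ^ m ≠ 0 := hd.left_ne
    rwa [inv_pow, mul_inv_cancel₀ hd0] at h1
  have hne : ∀ {d c' : K}, Near RK (d ^ m) c' → (algebraMap K F d)⁻¹ ≠ 0 := by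
    intro d c' hd
    refine inv_ne_zero ((map_ne_zero _).2 ?_)
    rintro rfl
    exact hd.left_ne (zero_pow (h.m_ne_zero hmq))
  obtain ⟨g3, hgi, hgm, hg0⟩ := exists_near3 h.unif_i h.unif_m h.unif_0 h.ne_im h.ne_i0 h.ne_m0
    (hne hdi) (hne hdm) (hne hd0)
  have hg3 : g3 ≠ 0 := hgi.left_ne
  refine ⟨c, g / g3, u₁ * g3 ^ m, hc, div_ne_zero hg hg3, ?_, key h.comapF_i hdi hni hgi,
    key h.comapF_m hdm hnm hgm, key h.comapF_0 hd0 hn0 hg0⟩
  rw [hu₁, div_pow]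
  have : g3 ^ m ≠ 0 := pow_ne_zero _ hg3
  field_simp

end Ctx3

end Fermat.Agent.S36.Norm
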