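import Fermat.Agent.S36.Norm.Five

set_option autoImplicit false
set_option linter.unusedSectionVars false

/-!
# S36 / Norm / FivePow : the form of (5) consumed by the toric theorem

`Ctx3.five_pow`: if the units of `RK` are `m`-th powers (`K = K0`, the fixed field of inertia), `gcd(m, q) = 1` and `N_α u`, `N_β u`
are (constant) * (`m`-th power), then `u ^ ((q+1)(q-1)) = c * g ^ m * u₁` with `u₁ ≡ 1` at the three branches and
`N_α u₁`, `N_β u₁` EXACT `m`-th powers.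
-/

noncomputable section

namespace Fermat.Agent.S36.Norm

variable {K F' F : Type*} [Field K] [Field F'] [CharZero F'] [Algebra K F'] [Field F] [Algebra K F]
  {q : ℕ} {RK : ValuationSubring K} {ϖ : K} {α β : F' →+* F}
  {Vi' V0' : ValuationSubring F'} {Vi Vm V0 : ValuationSubring F} {t tα tβ : F} {yα yβ : F'}

omit [CharZero F'] [Algebra K F] in
theorem NC.inv {φ : F' →+* F} {m : ℕ} {u : F} (hu : NC K φ m u) : NC K φ m u⁻¹ := by
  by_cases hu0 : u = 0
  · rw [hu0, inv_zero, ← hu0]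
    exact hu
  obtain ⟨a, w, ha, hw⟩ := hu
  refine ⟨a⁻¹, w⁻¹, inv_ne_zero ha, ?_⟩
  have h1 : normAlong φ u * normAlong φ u⁻¹ = 1 := by
    rw [← map_mul, mul_inv_cancel₀ hu0, map_one]
  rw [eq_inv_of_mul_eq_one_right h1, hw, mul_inv, map_inv₀, inv_pow]

/-- exact roots imply roots modulo the maximal ideal. -/
theorem rootsMod_of_roots {m : ℕ} (hroot : ∀ c : K, HasOrd RK ϖ c 0 → ∃ d : K, d ^ m = c) :
    RootsMod RK ϖ m := by
  intro c hc
  obtain ⟨d, hd⟩ := hroot c hc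
  exact ⟨d, by rw [hd]; exact Near.refl hc.1⟩

namespace Ctx3

variable (h : Ctx3 q RK ϖ α β Vi' V0' Vi Vm V0 t tα tβ yα yβ)
include h

/-- a norm which is a unit at `Vi'` and (constant) * (`m`-th power) is an `m`-th power. -/
theorem nc_exact {φ : F' →+* F} {m : ℕ} (hm : m ≠ 0)
    (hroot : ∀ c : K, HasOrd RK ϖ c 0 → ∃ d : K, d ^ m = c) {u : F}
    (hN : HasOrd Vi' (algebraMap K F' ϖ) (normAlong φ u) 0) (hnc : NC K φ m u) :
    ∃ w : F', normAlong φ u = w ^ m := by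
  obtain ⟨a, w, ha, hw⟩ := h.nc_unit hm hN hnc
  obtain ⟨d, hd⟩ := hroot a ha
  exact ⟨algebraMap K F' d * w, by rw [hw, mul_pow, ← map_pow, hd]⟩

theorem norm_α_one {u : F} (hi : One1 Vi u) (hm : One1 Vm u) : One1 Vi' (normAlong α u) := by
  have h1 : Near Vi u (α 1) := by rw [map_one]; exact near_one_iff.2 hi
  have h2 : Near Vm u (α 1) := by rw [map_one]; exact near_one_iff.2 hm
  have := h.split_α.norm_near h.two_le h1 h2
  rw [one_pow, mul_one] at this
  exact near_one_iff.1 this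

theorem norm_β_one {u : F} (h0 : One1 V0 u) (hm : One1 Vm u) : One1 V0' (normAlong β u) := by
  have h1 : Near V0 u (β 1) := by rw [map_one]; exact near_one_iff.2 h0
  have h2 : Near Vm u (β 1) := by rw [map_one]; exact near_one_iff.2 hm
  have := h.split_β.norm_near h.two_le h1 h2
  rw [one_pow, mul_one] at this
  exact near_one_iff.1 this

theorem norm_β_one_i {u : F} (hi : One1 Vi u) : One1 Vi' (normAlong β u) := by
  have h1 : Near Vi (u ^ q) (β 1) := by rw [map_one]; exact near_one_iff.2 (hi.pow q)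
  exact near_one_iff.1 (h.rad_β.norm_near h.hq h1)

theorem norm_α_one_0 {u : F} (h0 : One1 V0 u) : One1 V0' (normAlong α u) := by
  have h1 : Near V0 (u ^ q) (α 1) := by rw [map_one]; exact near_one_iff.2 (h0.pow q)
  exact near_one_iff.1 (h.rad_α.norm_near h.hq h1)

omit h in
theorem hasOrd_zero_of_one1 {L : Type*} [Field L] {V : ValuationSubring L} {π z : L}
    (hz : One1 V z) : HasOrd V π z 0 :=
  hasOrd_zero_iff.2 ⟨hz.ne_zero, hz.mem, hz.inv_mem⟩

/-- **(5)**, the form consumed by the toric theorem. -/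
theorem five_pow {m : ℕ} (hmq : Nat.Coprime m q)
    (hroot : ∀ c : K, HasOrd RK ϖ c 0 → ∃ d : K, d ^ m = c) {u : F} (hu : u ≠ 0)
    (hα : NC K α m u) (hβ : NC K β m u) :
    ∃ (c : K) (g u₁ : F) (wα wβ : F'), c ≠ 0 ∧ g ≠ 0 ∧
      u ^ ((q + 1) * (q - 1)) = algebraMap K F c * g ^ m * u₁ ∧
      One1 Vi u₁ ∧ One1 Vm u₁ ∧ One1 V0 u₁ ∧
      normAlong α u₁ = wα ^ m ∧ normAlong β u₁ = wβ ^ m := by
  have hm := h.m_ne_zero hmq
  obtain ⟨c, g, u₁, hc, hg, hu₁, hi, hmm, h0⟩ :=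
    h.five_one hmq (rootsMod_of_roots hroot) hu hα hβ
  have hcF : algebraMap K F c ≠ 0 := (map_ne_zero _).2 hc
  have e : u₁ = u ^ ((q + 1) * (q - 1)) * (algebraMap K F c)⁻¹ * (g ^ m)⁻¹ := by
    rw [hu₁]
    have := pow_ne_zero m hg
    field_simp
  have hα1 : NC K α m u₁ := by
    rw [e]
    exact ((hα.pow _).mul (h.nc_const_α m hc).inv).mul (nc_pow α m g).inv
  have hβ1 : NC K β m u₁ := by
    rw [e]
    exact ((hβ.pow _).mul (h.nc_const_β m hc).inv).mul (nc_pow β m g).inv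
  obtain ⟨wα, hwα⟩ := h.nc_exact hm hroot (hasOrd_zero_of_one1 (h.norm_α_one hi hmm)) hα1
  obtain ⟨wβ, hwβ⟩ := h.nc_exact hm hroot (hasOrd_zero_of_one1 (h.norm_β_one_i hi)) hβ1
  exact ⟨c, g, u₁, wα, wβ, hc, hg, hu₁, hi, hmm, h0, hwα, hwβ⟩

end Ctx3

end Fermat.Agent.S36.Norm
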