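import Mathlib

set_option autoImplicit false

/-!
# S36 / Norm : definitions   (abstract chapter: Mathlib + `S34/V2/Count` only)

Language for "discrete valuation subrings" of a field and for the two kinds of behaviour of a
degree `q` extension `L / K1` above a discrete valuation subring `V'` of `K1`:

* `Split` : two extensions `Va`, `Vb` with `(e, f) = (1, 1), (q - 1, 1)`;
* `Rad`   : one extension `V` with `(e, f) = (1, q)`, purely inseparable residue extension.

Everything is expressed by membership in `ValuationSubring`s: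

* `One1 V z`      : `z ≡ 1 mod 𝔪_V`;
* `Near V x y`    : `y ≠ 0` and `x / y ≡ 1 mod 𝔪_V`   (multiplicative congruence; no integrality of `x`, `y`);
* `HasOrd V π z k`: `z = π ^ k * unit of V`;
* `IsUnif V π`    : `π` is a uniformiser of `V` and `V` is discrete of rank one.
-/

noncomputable section

namespace Fermat.Agent.S36.Norm

section
variable {L : Type*} [Field L]

/-- `z ≡ 1` modulo the maximal ideal of `V`. -/
def One1 (V : ValuationSubring L) (z : L) : Prop := z - 1 ∈ V.nonunits

/-- multiplicative congruence: `x / y ≡ 1` modulo the maximal ideal of `V`. -/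
def Near (V : ValuationSubring L) (x y : L) : Prop := y ≠ 0 ∧ One1 V (x / y)

/-- `z = π ^ k * (unit of V)`. -/
def HasOrd (V : ValuationSubring L) (π z : L) (k : ℤ) : Prop :=
  z ≠ 0 ∧ z / π ^ k ∈ V ∧ π ^ k / z ∈ V

/-- `π` is a uniformiser of `V`, and every nonzero element is a power of `π` times a unit. -/
structure IsUnif (V : ValuationSubring L) (π : L) : Prop where
  mem : π ∈ V.nonunits
  ne_zero : π ≠ 0
  exists_ord : ∀ z : L, z ≠ 0 → ∃ k : ℤ, HasOrd V π z k

end

section
variable {K1 L : Type*} [Field K1] [Field L] [Algebra K1 L]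

/-- `L / K1` of degree `≤ q`; above `V'` (uniformiser `ϖ`) there are two distinct valuation subrings
`Va`, `Vb`, and `t ∈ 𝔪_{Vb}` with `t ^ (q - 1) ∣ ϖ` in `Vb`  (so `e(Vb / V') ≥ q - 1`). -/
structure Split (q : ℕ) (V' : ValuationSubring K1) (ϖ : K1) (Va Vb : ValuationSubring L) (t : L) :
    Prop where
  fin : FiniteDimensional K1 L
  finrank_le : Module.finrank K1 L ≤ q
  unif : IsUnif V' ϖ
  comap_a : Va.comap (algebraMap K1 L) = V'
  comap_b : Vb.comap (algebraMap K1 L) = V'
  ne : Va ≠ Vb
  t_mem : t ∈ Vb.nonunits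
  t_ne : t ≠ 0
  t_dvd : algebraMap K1 L ϖ / t ^ (q - 1) ∈ Vb

/-- `L / K1` of degree `≤ q`, `q` the residue characteristic; `V` above `V'` (uniformiser `ϖ`); `t ∈ V` with
`t ^ q ≡ y₀ ∈ V'` and `t` not congruent to any element of `V'`  (so `f(V / V') ≥ q`, inseparably). -/
structure Rad (q : ℕ) (V' : ValuationSubring K1) (ϖ : K1) (V : ValuationSubring L) (t : L) (y₀ : K1) :
    Prop where
  fin : FiniteDimensional K1 L
  finrank_le : Module.finrank K1 L ≤ q
  unif : IsUnif V' ϖ
  comap : V.comap (algebraMap K1 L) = V'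
  q_mem : (q : K1) ∈ V'.nonunits
  t_mem : t ∈ V
  y_mem : y₀ ∈ V'
  t_pow : t ^ q - algebraMap K1 L y₀ ∈ V.nonunits
  t_not : ∀ y ∈ V', t - algebraMap K1 L y ∉ V.nonunits

end

end Fermat.Agent.S36.Norm
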