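import Fermat.Agent.S36.Norm.Basic

set_option autoImplicit false

/-!
# S36 / Norm / Ext : extension of a valuation subring to the algebraic closure; the norm as a product   (task N-Ext)

`Ω = AlgebraicClosure L`, `L / K1` finite, characteristic zero.

SKETCH.
* `exists_ext`: `IsLocalRing.exists_factor_valuationRing ((algebraMap L Ω).comp V.subtype)` gives `𝒪 ⊇ V` with `V → 𝒪` local.  `𝒪.comap = V`: `⊇` clear.  If `z ∉ V` then
  `z⁻¹ ∈ 𝔪_V` (`nu_iff`), so its image is a nonunit of `𝒪` (local hom: if the image of `a : V` is a unit of `𝒪` then `a` is a unit), hence `algebraMap z ∉ 𝒪` (`nu_iff`).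
* `hasOrd_iff_val`: `z / π^k ∈ V ↔ v z ≤ v π ^ k` etc. (`ValuationSubring.valuation_le_one_iff`, `map_div₀`, `map_zpow₀`, `div_le_one₀`).
* `val_norm`, `near_norm`: `Algebra.norm_eq_prod_embeddings K1 Ω u`, `map_prod`; `near_comap_iff`, `Near.prod`, `AlgHom.commutes`.
-/

noncomputable section

namespace Fermat.Agent.S36.Norm

section
variable {L : Type*} [Field L]

theorem exists_ext (V : ValuationSubring L) :
    ∃ 𝒪 : ValuationSubring (AlgebraicClosure L),
      𝒪.comap (algebraMap L (AlgebraicClosure L)) = V := by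
  obtain ⟨𝒪, h𝒪, hloc⟩ := IsLocalRing.exists_factor_valuationRing
    ((algebraMap L (AlgebraicClosure L)).comp V.subtype)
  refine ⟨𝒪, ?_⟩
  ext z
  rw [ValuationSubring.mem_comap]
  constructor
  · intro hz
    by_contra hzV
    have hz0 : z ≠ 0 := fun h => hzV (h ▸ V.zero_mem)
    have hinv : z⁻¹ ∈ V.nonunits := by
      rw [nu_iff, inv_inv]
      exact Or.inr hzV
    have hinvV : z⁻¹ ∈ V := nu_mem hinv
    -- the image of `z⁻¹` is a unit of `𝒪`
    have hu : IsUnit ((((algebraMap L (AlgebraicClosure L)).comp V.subtype).codRestrict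
        𝒪.toSubring h𝒪) ⟨z⁻¹, hinvV⟩) := by
      refine IsUnit.of_mul_eq_one (⟨algebraMap L (AlgebraicClosure L) z, hz⟩ : 𝒪) ?_
      apply Subtype.ext
      show algebraMap L (AlgebraicClosure L) z⁻¹ * algebraMap L (AlgebraicClosure L) z = 1
      rw [← map_mul, inv_mul_cancel₀ hz0, map_one]
    have hu' : IsUnit (⟨z⁻¹, hinvV⟩ : V) := hloc.map_nonunit _ hu
    have h3 : ((⟨z⁻¹, hinvV⟩ : V) : L) ∈ V.nonunits := hinv
    rw [ValuationSubring.coe_mem_nonunits_iff, IsLocalRing.mem_maximalIdeal, mem_nonunits_iff] at h3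
    exact h3 hu'
  · intro hz
    exact h𝒪 ⟨z, hz⟩

theorem hasOrd_iff_val {V : ValuationSubring L} {π : L} (hπ : π ≠ 0) (z : L) (k : ℤ) :
    HasOrd V π z k ↔ V.valuation z = V.valuation π ^ k := by
  have hvπ : V.valuation π ≠ 0 := (Valuation.ne_zero_iff _).2 hπ
  have hvk : 0 < V.valuation π ^ k := zero_lt_iff.2 (zpow_ne_zero k hvπ)
  unfold HasOrd
  constructor
  · rintro ⟨hz, h1, h2⟩
    have hvz : 0 < V.valuation z := zero_lt_iff.2 ((Valuation.ne_zero_iff _).2 hz)
    rw [← V.valuation_le_one_iff, map_div₀, map_zpow₀, div_le_one₀ hvk] at h1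
    rw [← V.valuation_le_one_iff, map_div₀, map_zpow₀, div_le_one₀ hvz] at h2
    exact le_antisymm h1 h2
  · intro h
    have hz : z ≠ 0 := by
      rintro rfl
      rw [map_zero] at h
      exact hvk.ne h
    have hvz : 0 < V.valuation z := zero_lt_iff.2 ((Valuation.ne_zero_iff _).2 hz)
    refine ⟨hz, ?_, ?_⟩
    · rw [← V.valuation_le_one_iff, map_div₀, map_zpow₀, div_le_one₀ hvk]
      exact h.le
    · rw [← V.valuation_le_one_iff, map_div₀, map_zpow₀, div_le_one₀ hvz]
      exact h.ge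

end

section
variable {K1 L : Type*} [Field K1] [CharZero K1] [Field L] [Algebra K1 L] [FiniteDimensional K1 L]

theorem comap_comap_algHom (𝒪 : ValuationSubring (AlgebraicClosure L))
    (σ : L →ₐ[K1] AlgebraicClosure L) :
    (𝒪.comap σ.toRingHom).comap (algebraMap K1 L) = 𝒪.comap (algebraMap K1 (AlgebraicClosure L)) := by
  ext z
  rw [ValuationSubring.mem_comap, ValuationSubring.mem_comap, ValuationSubring.mem_comap]
  show σ (algebraMap K1 L z) ∈ 𝒪 ↔ _
  rw [σ.commutes]

theorem card_algHom : Fintype.card (L →ₐ[K1] AlgebraicClosure L) = Module.finrank K1 L :=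
  AlgHom.card K1 L (AlgebraicClosure L)

theorem val_norm (𝒪 : ValuationSubring (AlgebraicClosure L)) (u : L) :
    𝒪.valuation (algebraMap K1 (AlgebraicClosure L) (Algebra.norm K1 u)) =
      ∏ σ : L →ₐ[K1] AlgebraicClosure L, 𝒪.valuation (σ u) := by
  rw [Algebra.norm_eq_prod_embeddings K1 (AlgebraicClosure L) u, map_prod]

/-- the norm of `u` is near `∏ y σ` if `u` is near `y σ` at the valuation subring `σ⁻¹ 𝒪`. -/
theorem near_norm (𝒪 : ValuationSubring (AlgebraicClosure L)) (u : L)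
    (y : (L →ₐ[K1] AlgebraicClosure L) → K1)
    (h : ∀ σ : L →ₐ[K1] AlgebraicClosure L, Near (𝒪.comap σ.toRingHom) u (algebraMap K1 L (y σ))) :
    Near (𝒪.comap (algebraMap K1 (AlgebraicClosure L))) (Algebra.norm K1 u) (∏ σ, y σ) := by
  rw [near_comap_iff, Algebra.norm_eq_prod_embeddings K1 (AlgebraicClosure L) u, map_prod]
  refine Near.prod _ fun σ _ => ?_
  have h1 := (near_comap_iff σ.toRingHom 𝒪 u (algebraMap K1 L (y σ))).1 (h σ)
  have h2 : σ.toRingHom (algebraMap K1 L (y σ)) = algebraMap K1 (AlgebraicClosure L) (y σ) :=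
    σ.commutes _
  rw [h2] at h1
  exact h1

/-- variant with target in `Ω`. -/
theorem near_norm' (𝒪 : ValuationSubring (AlgebraicClosure L)) (u : L)
    (y : (L →ₐ[K1] AlgebraicClosure L) → AlgebraicClosure L)
    (h : ∀ σ : L →ₐ[K1] AlgebraicClosure L, Near 𝒪 (σ u) (y σ)) :
    Near 𝒪 (algebraMap K1 (AlgebraicClosure L) (Algebra.norm K1 u)) (∏ σ, y σ) := by
  rw [Algebra.norm_eq_prod_embeddings K1 (AlgebraicClosure L) u]
  exact Near.prod _ fun σ _ => h σ

end

end Fermat.Agent.S36.Norm
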