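import Fermat.Agent.S36.Norm.RadCount
import Fermat.Agent.S36.Norm.Ext

set_option autoImplicit false

/-!
# S36 / Norm / RadNorm : order and reduction of the norm in the `Rad` situation   (task N-RadNorm)

SKETCH.  `𝒪` := an extension of `V` to `Ω = AlgebraicClosure L` (`exists_ext`); `𝒪.comap (algebraMap K1 Ω) = V'`; for every `σ : L →ₐ[K1] Ω`, `𝒪.comap σ = V` (`comap_comap_algHom`, `Rad.all`).
The number of `σ` is `q` (`card_algHom`, `Rad.finrank_eq`).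
* `norm_ord`: `v(σ u) = γ^a` for all `σ` (`γ = v ϖ`), `val_norm`: `v(N u) = γ^(q a)`; `hasOrd_iff_val`, `hasOrd_comap_iff`.
* `norm_near`: `Near 𝒪 ((σ u)^q) y` for all `σ` (`near_comap_iff`).  With `σ₀` the canonical embedding, `c = σ u / σ₀ u` has `One1 𝒪 (c^q)`, so `One1 𝒪 c` (`frob_inj`; `(q : Ω) ∈ 𝔪_𝒪` from `h.q_mem`):
  `Near 𝒪 (σ u) (σ₀ u)`.  `near_norm'` with `y σ = σ₀ u`: `Near 𝒪 (N u) ((σ₀ u)^q)`, and `Near 𝒪 ((σ₀ u)^q) y`.  `near_comap_iff` back to `V'`.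
* `near_pow_norm`: `u = ϖ^a * u₀` (`Rad.unif'`), `u₀` a unit of `V`, `u₀^q ≡ y` (`Rad.frob`), `y` is a unit (its image is), so `Near V (u₀^q) y` (`near_iff_sub`), `Near V (u^q) (ϖ^(q a) y)`;
  `norm_near`; transport `Near V' _ _` to `V` by `near_comap_iff` and `h.comap`; `Near.trans`, `Near.symm`.
-/

noncomputable section

namespace Fermat.Agent.S36.Norm

variable {K1 L : Type*} [Field K1] [CharZero K1] [Field L] [Algebra K1 L] {q : ℕ}
  {V' : ValuationSubring K1} {ϖ : K1} {V : ValuationSubring L} {t : L} {y₀ : K1}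

namespace RadNormAux

theorem comap_base (h : Rad q V' ϖ V t y₀) {𝒪 : ValuationSubring (AlgebraicClosure L)}
    (h𝒪 : 𝒪.comap (algebraMap L (AlgebraicClosure L)) = V) :
    𝒪.comap (algebraMap K1 (AlgebraicClosure L)) = V' := by
  rw [IsScalarTower.algebraMap_eq K1 L (AlgebraicClosure L), ← ValuationSubring.comap_comap, h𝒪,
    h.comap]

theorem comap_emb (h : Rad q V' ϖ V t y₀) (hq : q.Prime)
    {𝒪 : ValuationSubring (AlgebraicClosure L)}
    (h𝒪 : 𝒪.comap (algebraMap L (AlgebraicClosure L)) = V) (σ : L →ₐ[K1] AlgebraicClosure L) :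
    𝒪.comap σ.toRingHom = V := by
  have := h.fin
  refine h.all hq _ ?_
  rw [comap_comap_algHom, comap_base h h𝒪]

theorem card_emb (h : Rad q V' ϖ V t y₀) (hq : q.Prime) [FiniteDimensional K1 L] :
    Fintype.card (L →ₐ[K1] AlgebraicClosure L) = q := by
  rw [card_algHom, h.finrank_eq hq]

end RadNormAux

open RadNormAux in
/-- `v'(N u) = q v(u)`. -/
theorem Rad.norm_ord (h : Rad q V' ϖ V t y₀) (hq : q.Prime) {u : L} {a : ℤ}
    (ha : HasOrd V (algebraMap K1 L ϖ) u a) : HasOrd V' ϖ (Algebra.norm K1 u) (q * a) := by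
  have := h.fin
  obtain ⟨𝒪, h𝒪⟩ := exists_ext V
  have hϖ0 : algebraMap K1 (AlgebraicClosure L) ϖ ≠ 0 := (map_ne_zero _).2 h.unif.ne_zero
  rw [← comap_base h h𝒪, hasOrd_comap_iff, hasOrd_iff_val hϖ0, val_norm]
  have h1 : ∀ σ : L →ₐ[K1] AlgebraicClosure L,
      𝒪.valuation (σ u) = 𝒪.valuation (algebraMap K1 (AlgebraicClosure L) ϖ) ^ a := by
    intro σ
    have h2 := ha
    rw [← comap_emb h hq h𝒪 σ, hasOrd_comap_iff] at h2
    have e : σ.toRingHom (algebraMap K1 L ϖ) = algebraMap K1 (AlgebraicClosure L) ϖ := σ.commutes ϖ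
    rw [e] at h2
    exact (hasOrd_iff_val hϖ0 _ _).1 h2
  rw [Finset.prod_congr rfl fun σ _ => h1 σ, Finset.prod_const, Finset.card_univ, card_emb h hq,
    ← zpow_natCast, ← zpow_mul, mul_comm]

open RadNormAux in
/-- `u^q ≡ y ⟹ N u ≡ y`. -/
theorem Rad.norm_near (h : Rad q V' ϖ V t y₀) (hq : q.Prime) {u : L} {y : K1}
    (hy : Near V (u ^ q) (algebraMap K1 L y)) : Near V' (Algebra.norm K1 u) y := by
  have := h.fin
  obtain ⟨𝒪, h𝒪⟩ := exists_ext V
  have hu : u ≠ 0 := fun h0 => hy.left_ne (by rw [h0, zero_pow hq.ne_zero])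
  have hq𝒪 : ((q : ℕ) : AlgebraicClosure L) ∈ 𝒪.nonunits := by
    have h1 := h.q_mem
    rw [← comap_base h h𝒪, nu_comap_iff, map_natCast] at h1
    exact h1
  have h1 : ∀ σ : L →ₐ[K1] AlgebraicClosure L,
      Near 𝒪 ((σ u) ^ q) (algebraMap K1 (AlgebraicClosure L) y) := by
    intro σ
    have h2 := hy
    rw [← comap_emb h hq h𝒪 σ, near_comap_iff] at h2
    have e : σ.toRingHom (algebraMap K1 L y) = algebraMap K1 (AlgebraicClosure L) y := σ.commutes y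
    have e' : σ.toRingHom (u ^ q) = (σ u) ^ q := map_pow σ u q
    rw [e, e'] at h2
    exact h2
  set σ₀ : L →ₐ[K1] AlgebraicClosure L := IsScalarTower.toAlgHom K1 L (AlgebraicClosure L) with hσ₀
  have hσ₀u : σ₀ u ≠ 0 := (map_ne_zero _).2 hu
  have h2 : ∀ σ : L →ₐ[K1] AlgebraicClosure L, Near 𝒪 (σ u) (σ₀ u) := by
    intro σ
    refine ⟨hσ₀u, frob_inj hq hq𝒪 ?_⟩
    rw [div_pow]
    exact ((h1 σ).trans (h1 σ₀).symm).2
  have h3 := near_norm' 𝒪 u (fun _ => σ₀ u) h2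
  rw [Finset.prod_const, Finset.card_univ, card_emb h hq] at h3
  rw [← comap_base h h𝒪, near_comap_iff]
  exact h3.trans (h1 σ₀)

/-- `u^q ≡ N u` at `V`, for every `u ≠ 0`. -/
theorem Rad.near_pow_norm (h : Rad q V' ϖ V t y₀) (hq : q.Prime) {u : L} (hu : u ≠ 0) :
    Near V (u ^ q) (algebraMap K1 L (Algebra.norm K1 u)) := by
  have hun := h.unif' hq
  obtain ⟨a, ha⟩ := hun.exists_ord u hu
  have hϖ0 : algebraMap K1 L ϖ ≠ 0 := hun.ne_zero
  have hpa : algebraMap K1 L ϖ ^ a ≠ 0 := zpow_ne_zero _ hϖ0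
  set u₀ : L := u / algebraMap K1 L ϖ ^ a with hu₀
  have hu₀0 : u₀ ≠ 0 := div_ne_zero hu hpa
  have hu₀m : u₀ ∈ V := ha.2.1
  have hu₀i : u₀⁻¹ ∈ V := by
    rw [hu₀, inv_div]; exact ha.2.2
  obtain ⟨y, hyV, hy⟩ := h.frob hq hu₀m
  have hpow_not : u₀ ^ q ∉ V.nonunits :=
    not_nu_of_inv_mem (pow_ne_zero _ hu₀0) (by rw [← inv_pow]; exact V.pow_mem hu₀i q)
  have hy_not : algebraMap K1 L y ∉ V.nonunits := by
    intro hn
    apply hpow_not
    have := nu_add hy hn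
    rwa [sub_add_cancel] at this
  have hy0 : algebraMap K1 L y ≠ 0 := fun h0 => hy_not (h0 ▸ nu_zero)
  have hymem : algebraMap K1 L y ∈ V := by
    have : y ∈ V.comap (algebraMap K1 L) := h.comap ▸ hyV
    exact this
  have h1 : Near V (u₀ ^ q) (algebraMap K1 L y) :=
    (near_iff_sub hy0 hymem (inv_mem_of_not_nu hy_not)).2 hy
  have h2 : Near V (u ^ q) (algebraMap K1 L ((ϖ ^ a) ^ q * y)) := by
    have e1 : u ^ q = (algebraMap K1 L ϖ ^ a) ^ q * u₀ ^ q := by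
      rw [← mul_pow, hu₀, mul_div_cancel₀ _ hpa]
    have e2 : algebraMap K1 L ((ϖ ^ a) ^ q * y)
        = (algebraMap K1 L ϖ ^ a) ^ q * algebraMap K1 L y := by
      rw [map_mul, map_pow, map_zpow₀]
    rw [e1, e2]
    exact (Near.refl (pow_ne_zero _ hpa)).mul h1
  have h3 := h.norm_near hq h2
  rw [← h.comap, near_comap_iff] at h3
  exact h2.trans h3.symm

end Fermat.Agent.S36.Norm
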