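import Fermat.Agent.S36.Norm.SplitNorm
import Fermat.Agent.S36.Norm.RadNorm

set_option autoImplicit false
set_option linter.unusedSectionVars false

/-!
# S36 / Norm / Along : the `Split` / `Rad` results for the algebra structure given by a ring hom `φ : F' →+* F`
-/

noncomputable section

namespace Fermat.Agent.S36.Norm

variable {F' F : Type*} [Field F'] [CharZero F'] [Field F]

/-- the norm along `φ : F' →+* F`. -/
def normAlong (φ : F' →+* F) : F →* F' := @Algebra.norm F' F _ _ φ.toAlgebra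

/-- `Split` for the algebra structure given by `φ`. -/
def SplitAlong (φ : F' →+* F) (q : ℕ) (V' : ValuationSubring F') (ϖ : F') (Va Vb : ValuationSubring F)
    (t : F) : Prop := @Split F' F _ _ φ.toAlgebra q V' ϖ Va Vb t

/-- `Rad` for the algebra structure given by `φ`. -/
def RadAlong (φ : F' →+* F) (q : ℕ) (V' : ValuationSubring F') (ϖ : F') (V : ValuationSubring F)
    (t : F) (y₀ : F') : Prop := @Rad F' F _ _ φ.toAlgebra q V' ϖ V t y₀

variable {φ : F' →+* F} {q : ℕ} {V' : ValuationSubring F'} {ϖ : F'}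

theorem normAlong_ne_zero_of_fin (hfin : @FiniteDimensional F' F _ _ φ.toAlgebra.toModule) {u : F}
    (hu : u ≠ 0) : normAlong φ u ≠ 0 := by
  let _ := φ.toAlgebra
  have := hfin
  exact Algebra.norm_ne_zero_iff.2 hu

section split
variable {Va Vb : ValuationSubring F} {t : F}

theorem SplitAlong.comap_a (h : SplitAlong φ q V' ϖ Va Vb t) : Va.comap φ = V' := by
  let _ := φ.toAlgebra
  exact Split.comap_a h

theorem SplitAlong.comap_b (h : SplitAlong φ q V' ϖ Va Vb t) : Vb.comap φ = V' := by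
  let _ := φ.toAlgebra
  exact Split.comap_b h

theorem SplitAlong.ne (h : SplitAlong φ q V' ϖ Va Vb t) : Va ≠ Vb := by
  let _ := φ.toAlgebra
  exact Split.ne h

theorem SplitAlong.unif (h : SplitAlong φ q V' ϖ Va Vb t) : IsUnif V' ϖ := by
  let _ := φ.toAlgebra
  exact Split.unif h

theorem SplitAlong.unif_a (h : SplitAlong φ q V' ϖ Va Vb t) (hq : 2 ≤ q) : IsUnif Va (φ ϖ) := by
  let _ := φ.toAlgebra
  exact Split.unif_a h hq

theorem SplitAlong.unif_b (h : SplitAlong φ q V' ϖ Va Vb t) (hq : 2 ≤ q) : IsUnif Vb t := by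
  let _ := φ.toAlgebra
  exact Split.unif_b h hq

theorem SplitAlong.ord_b (h : SplitAlong φ q V' ϖ Va Vb t) (hq : 2 ≤ q) :
    HasOrd Vb t (φ ϖ) ((q : ℤ) - 1) := by
  let _ := φ.toAlgebra
  exact Split.ord_b h hq

theorem SplitAlong.near_a (h : SplitAlong φ q V' ϖ Va Vb t) (hq : 2 ≤ q) {z : F} (hz : z ≠ 0) :
    ∃ y : F', Near Va z (φ y) := by
  let _ := φ.toAlgebra
  exact Split.near_a h hq hz

theorem SplitAlong.near_b (h : SplitAlong φ q V' ϖ Va Vb t) (hq : 2 ≤ q) {z : F} {k : ℤ}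
    (hz : HasOrd Vb t z (((q : ℤ) - 1) * k)) : ∃ y : F', Near Vb z (φ y) := by
  let _ := φ.toAlgebra
  exact Split.near_b h hq hz

theorem SplitAlong.norm_ord (h : SplitAlong φ q V' ϖ Va Vb t) (hq : 2 ≤ q) {u : F} {a b : ℤ}
    (ha : HasOrd Va (φ ϖ) u a) (hb : HasOrd Vb t u b) : HasOrd V' ϖ (normAlong φ u) (a + b) := by
  let _ := φ.toAlgebra
  exact Split.norm_ord h hq ha hb

theorem SplitAlong.norm_near (h : SplitAlong φ q V' ϖ Va Vb t) (hq : 2 ≤ q) {u : F} {ya yb : F'}
    (ha : Near Va u (φ ya)) (hb : Near Vb u (φ yb)) :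
    Near V' (normAlong φ u) (ya * yb ^ (q - 1)) := by
  let _ := φ.toAlgebra
  exact Split.norm_near h hq ha hb

theorem SplitAlong.norm_map (h : SplitAlong φ q V' ϖ Va Vb t) (hq : 2 ≤ q) (c : F') :
    normAlong φ (φ c) = c ^ q := by
  let _ := φ.toAlgebra
  have h1 : Module.finrank F' F = q := Split.finrank_eq h hq
  have h2 := Algebra.norm_algebraMap (R := F') (S := F) c
  rw [h1] at h2
  exact h2

end split

section rad
variable {V : ValuationSubring F} {t : F} {y₀ : F'}

theorem RadAlong.comap (h : RadAlong φ q V' ϖ V t y₀) : V.comap φ = V' := by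
  let _ := φ.toAlgebra
  exact Rad.comap h

theorem RadAlong.unif (h : RadAlong φ q V' ϖ V t y₀) : IsUnif V' ϖ := by
  let _ := φ.toAlgebra
  exact Rad.unif h

theorem RadAlong.unif' (h : RadAlong φ q V' ϖ V t y₀) (hq : q.Prime) : IsUnif V (φ ϖ) := by
  let _ := φ.toAlgebra
  exact Rad.unif' h hq

theorem RadAlong.norm_ord (h : RadAlong φ q V' ϖ V t y₀) (hq : q.Prime) {u : F} {a : ℤ}
    (ha : HasOrd V (φ ϖ) u a) : HasOrd V' ϖ (normAlong φ u) (q * a) := by
  let _ := φ.toAlgebra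
  exact Rad.norm_ord h hq ha

theorem RadAlong.near_pow_norm (h : RadAlong φ q V' ϖ V t y₀) (hq : q.Prime) {u : F} (hu : u ≠ 0) :
    Near V (u ^ q) (φ (normAlong φ u)) := by
  let _ := φ.toAlgebra
  exact Rad.near_pow_norm h hq hu

theorem RadAlong.norm_near (h : RadAlong φ q V' ϖ V t y₀) (hq : q.Prime) {u : F} {y : F'}
    (hy : Near V (u ^ q) (φ y)) : Near V' (normAlong φ u) y := by
  let _ := φ.toAlgebra
  exact Rad.norm_near h hq hy

end rad

end Fermat.Agent.S36.Norm
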