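import Fermat.Agent.S36.Norm.Defs

set_option autoImplicit false

/-!
# S36 / Norm : basic API for `One1`, `Near`, `HasOrd`, `IsUnif`
-/

noncomputable section

namespace Fermat.Agent.S36.Norm

section
variable {L : Type*} [Field L] {V : ValuationSubring L}

theorem nu_add {x y : L} (hx : x ∈ V.nonunits) (hy : y ∈ V.nonunits) : x + y ∈ V.nonunits := by
  rw [ValuationSubring.mem_nonunits_iff] at *
  exact Valuation.map_add_lt _ hx hy

theorem nu_neg {x : L} (hx : x ∈ V.nonunits) : -x ∈ V.nonunits := by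
  rw [ValuationSubring.mem_nonunits_iff] at *
  rwa [Valuation.map_neg]

theorem nu_sub {x y : L} (hx : x ∈ V.nonunits) (hy : y ∈ V.nonunits) : x - y ∈ V.nonunits := by
  rw [sub_eq_add_neg]
  exact nu_add hx (nu_neg hy)

theorem nu_mem {x : L} (hx : x ∈ V.nonunits) : x ∈ V := by
  rw [ValuationSubring.mem_nonunits_iff] at hx
  exact (V.valuation_le_one_iff x).1 hx.le

theorem nu_mul_left {x y : L} (hx : x ∈ V) (hy : y ∈ V.nonunits) : x * y ∈ V.nonunits := by
  rw [ValuationSubring.mem_nonunits_iff] at *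
  rw [map_mul]
  exact lt_of_le_of_lt (mul_le_of_le_one_left' ((V.valuation_le_one_iff x).2 hx)) hy

theorem nu_mul_right {x y : L} (hx : x ∈ V.nonunits) (hy : y ∈ V) : x * y ∈ V.nonunits := by
  rw [mul_comm]
  exact nu_mul_left hy hx

theorem nu_zero : (0 : L) ∈ V.nonunits := by
  rw [ValuationSubring.mem_nonunits_iff, map_zero]
  exact zero_lt_one

theorem nu_iff {x : L} : x ∈ V.nonunits ↔ x = 0 ∨ x⁻¹ ∉ V := by
  rw [ValuationSubring.mem_nonunits_iff]
  by_cases hx : x = 0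
  · simp [hx]
  · rw [← V.valuation_le_one_iff, map_inv₀, not_le]
    have h0 : V.valuation x ≠ 0 := (Valuation.ne_zero_iff _).2 hx
    constructor
    · intro h
      exact Or.inr ((one_lt_inv₀ (zero_lt_iff.2 h0)).2 h)
    · rintro (h | h)
      · exact absurd h hx
      · exact (one_lt_inv₀ (zero_lt_iff.2 h0)).1 h

theorem nu_of_pow {x : L} {n : ℕ} (h : x ^ n ∈ V.nonunits) : x ∈ V.nonunits := by
  rw [ValuationSubring.mem_nonunits_iff] at *
  rw [map_pow] at h
  by_contra hc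
  exact absurd h (not_lt.2 (one_le_pow₀ (not_lt.1 hc)))

theorem nu_not_one : (1 : L) ∉ V.nonunits := by
  rw [ValuationSubring.mem_nonunits_iff, map_one]
  exact lt_irrefl _

/-- an element of `V` which is not in `𝔪_V` is a unit. -/
theorem inv_mem_of_not_nu {x : L} (h : x ∉ V.nonunits) : x⁻¹ ∈ V := by
  rw [nu_iff, not_or, not_not] at h
  exact h.2

theorem not_nu_of_inv_mem {x : L} (h0 : x ≠ 0) (h : x⁻¹ ∈ V) : x ∉ V.nonunits := by
  rw [nu_iff, not_or, not_not]
  exact ⟨h0, h⟩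

end

section
variable {K1 L : Type*} [Field K1] [Field L]

theorem nu_comap_iff (f : K1 →+* L) (V : ValuationSubring L) (x : K1) :
    x ∈ (V.comap f).nonunits ↔ f x ∈ V.nonunits := by
  rw [nu_iff, nu_iff, ValuationSubring.mem_comap, map_inv₀, map_eq_zero]

end

section
variable {L : Type*} [Field L] {V : ValuationSubring L}

/-! ### `One1` -/

theorem one1_one : One1 V 1 := by
  unfold One1
  rw [sub_self]
  exact nu_zero

theorem One1.mem {z : L} (h : One1 V z) : z ∈ V := by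
  have := V.add_mem _ _ (nu_mem h) V.one_mem
  rwa [sub_add_cancel] at this

theorem One1.not_nu {z : L} (h : One1 V z) : z ∉ V.nonunits := fun hz => by
  have := nu_sub hz h
  rw [sub_sub_cancel] at this
  exact nu_not_one this

theorem One1.ne_zero {z : L} (h : One1 V z) : z ≠ 0 := fun hz => h.not_nu (hz ▸ nu_zero)

theorem One1.inv_mem {z : L} (h : One1 V z) : z⁻¹ ∈ V := inv_mem_of_not_nu h.not_nu

theorem One1.mul {y z : L} (hy : One1 V y) (hz : One1 V z) : One1 V (y * z) := by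
  unfold One1
  have e : y * z - 1 = y * (z - 1) + (y - 1) := by ring
  rw [e]
  exact nu_add (nu_mul_left hy.mem hz) hy

theorem One1.inv {z : L} (h : One1 V z) : One1 V z⁻¹ := by
  unfold One1
  have e : z⁻¹ - 1 = z⁻¹ * (-(z - 1)) := by
    have := h.ne_zero
    field_simp
    ring
  rw [e]
  exact nu_mul_left h.inv_mem (nu_neg h)

theorem One1.div {y z : L} (hy : One1 V y) (hz : One1 V z) : One1 V (y / z) := by
  rw [div_eq_mul_inv]
  exact hy.mul hz.inv

theorem One1.pow {z : L} (h : One1 V z) (n : ℕ) : One1 V (z ^ n) := by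
  induction n with
  | zero => rw [pow_zero]; exact one1_one
  | succ n ih => rw [pow_succ]; exact ih.mul h

theorem One1.zpow {z : L} (h : One1 V z) (n : ℤ) : One1 V (z ^ n) := by
  cases n with
  | ofNat n => simpa using h.pow n
  | negSucc n => rw [zpow_negSucc]; exact (h.pow _).inv

/-! ### `Near` -/

theorem Near.refl {y : L} (hy : y ≠ 0) : Near V y y := ⟨hy, by rw [div_self hy]; exact one1_one⟩

theorem Near.right_ne {x y : L} (h : Near V x y) : y ≠ 0 := h.1

theorem Near.left_ne {x y : L} (h : Near V x y) : x ≠ 0 := fun hx => by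
  have := h.2.ne_zero
  rw [hx, zero_div] at this
  exact this rfl

theorem Near.symm {x y : L} (h : Near V x y) : Near V y x :=
  ⟨h.left_ne, by have := h.2.inv; rwa [inv_div] at this⟩

theorem Near.trans {x y z : L} (h : Near V x y) (h' : Near V y z) : Near V x z :=
  ⟨h'.1, by have := h.2.mul h'.2; rwa [div_mul_div_cancel₀ h.1] at this⟩

theorem Near.mul {x y x' y' : L} (h : Near V x y) (h' : Near V x' y') : Near V (x * x') (y * y') :=
  ⟨mul_ne_zero h.1 h'.1, by have := h.2.mul h'.2; rwa [div_mul_div_comm] at this⟩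

theorem Near.inv {x y : L} (h : Near V x y) : Near V x⁻¹ y⁻¹ :=
  ⟨inv_ne_zero h.1, by have := h.2.inv; rwa [← inv_div_inv, inv_div, inv_div_inv, ← inv_div_inv] at this⟩

theorem Near.div {x y x' y' : L} (h : Near V x y) (h' : Near V x' y') : Near V (x / x') (y / y') := by
  rw [div_eq_mul_inv, div_eq_mul_inv]
  exact h.mul h'.inv

theorem Near.pow {x y : L} (h : Near V x y) (n : ℕ) : Near V (x ^ n) (y ^ n) :=
  ⟨pow_ne_zero _ h.1, by have := h.2.pow n; rwa [div_pow] at this⟩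

theorem Near.zpow {x y : L} (h : Near V x y) (n : ℤ) : Near V (x ^ n) (y ^ n) :=
  ⟨zpow_ne_zero _ h.1, by have := h.2.zpow n; rwa [div_zpow] at this⟩

theorem near_one_iff {x : L} : Near V x 1 ↔ x - 1 ∈ V.nonunits := by
  unfold Near One1
  rw [div_one]
  exact ⟨fun h => h.2, fun h => ⟨one_ne_zero, h⟩⟩

/-- for a unit `y` of `V`, `Near` is the usual congruence. -/
theorem near_iff_sub {x y : L} (hy0 : y ≠ 0) (hy : y ∈ V) (hy' : y⁻¹ ∈ V) :
    Near V x y ↔ x - y ∈ V.nonunits := by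
  unfold Near One1
  constructor
  · rintro ⟨-, h⟩
    have e : x - y = y * (x / y - 1) := by field_simp
    rw [e]
    exact nu_mul_left hy h
  · intro h
    refine ⟨hy0, ?_⟩
    have e : x / y - 1 = y⁻¹ * (x - y) := by field_simp
    rw [e]
    exact nu_mul_left hy' h

theorem Near.prod {ι : Type*} (s : Finset ι) {x y : ι → L} (h : ∀ i ∈ s, Near V (x i) (y i)) :
    Near V (∏ i ∈ s, x i) (∏ i ∈ s, y i) := by
  classical
  induction s using Finset.induction_on with
  | empty => simpa using Near.refl (V := V) (one_ne_zero)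
  | insert a s ha ih =>
    rw [Finset.prod_insert ha, Finset.prod_insert ha]
    exact (h a (Finset.mem_insert_self a s)).mul (ih fun i hi => h i (Finset.mem_insert_of_mem hi))

/-! ### `HasOrd` -/

theorem HasOrd.ne_zero {π z : L} {k : ℤ} (h : HasOrd V π z k) : z ≠ 0 := h.1

theorem hasOrd_zpow {π : L} (hπ : π ≠ 0) (k : ℤ) : HasOrd V π (π ^ k) k :=
  ⟨zpow_ne_zero _ hπ, by rw [div_self (zpow_ne_zero _ hπ)]; exact V.one_mem,
    by rw [div_self (zpow_ne_zero _ hπ)]; exact V.one_mem⟩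

theorem hasOrd_self {π : L} (hπ : π ≠ 0) : HasOrd V π π 1 := by
  simpa using hasOrd_zpow (V := V) hπ 1

theorem HasOrd.mul {π y z : L} {k l : ℤ} (hπ : π ≠ 0) (hy : HasOrd V π y k) (hz : HasOrd V π z l) :
    HasOrd V π (y * z) (k + l) := by
  refine ⟨mul_ne_zero hy.1 hz.1, ?_, ?_⟩
  · have := V.mul_mem _ _ hy.2.1 hz.2.1
    rwa [div_mul_div_comm, ← zpow_add₀ hπ] at this
  · have := V.mul_mem _ _ hy.2.2 hz.2.2
    rwa [div_mul_div_comm, ← zpow_add₀ hπ] at this

theorem HasOrd.inv {π z : L} {k : ℤ} (hz : HasOrd V π z k) : HasOrd V π z⁻¹ (-k) := by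
  refine ⟨inv_ne_zero hz.1, ?_, ?_⟩
  · have := hz.2.2
    rwa [zpow_neg, inv_div_inv]
  · have := hz.2.1
    rwa [zpow_neg, inv_div_inv]

theorem HasOrd.div {π y z : L} {k l : ℤ} (hπ : π ≠ 0) (hy : HasOrd V π y k) (hz : HasOrd V π z l) :
    HasOrd V π (y / z) (k - l) := by
  rw [div_eq_mul_inv, sub_eq_add_neg]
  exact hy.mul hπ hz.inv

theorem hasOrd_one {π : L} : HasOrd V π 1 0 := by
  refine ⟨one_ne_zero, ?_, ?_⟩ <;> simpa using V.one_mem

theorem HasOrd.pow {π z : L} {k : ℤ} (hπ : π ≠ 0) (hz : HasOrd V π z k) (n : ℕ) :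
    HasOrd V π (z ^ n) (n * k) := by
  induction n with
  | zero => simpa using hasOrd_one
  | succ n ih =>
    rw [pow_succ]
    have := ih.mul hπ hz
    have e : ((n + 1 : ℕ) : ℤ) * k = n * k + k := by push_cast; ring
    rwa [e]

theorem HasOrd.zpow {π z : L} {k : ℤ} (hπ : π ≠ 0) (hz : HasOrd V π z k) (n : ℤ) :
    HasOrd V π (z ^ n) (n * k) := by
  cases n with
  | ofNat n => simpa using hz.pow hπ n
  | negSucc n =>
    rw [zpow_negSucc]
    have := (hz.pow hπ (n + 1)).inv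
    have e : Int.negSucc n * k = -(((n + 1 : ℕ) : ℤ) * k) := by
      rw [Int.negSucc_eq]; push_cast; ring
    rwa [e]

theorem hasOrd_zero_iff {π z : L} : HasOrd V π z 0 ↔ z ≠ 0 ∧ z ∈ V ∧ z⁻¹ ∈ V := by
  unfold HasOrd
  simp

theorem zpow_mem_nu {π : L} (hπ : π ∈ V.nonunits) {k : ℤ} (hk : 0 < k) : π ^ k ∈ V.nonunits := by
  obtain ⟨n, rfl⟩ := Int.eq_ofNat_of_zero_le hk.le
  rw [zpow_natCast]
  obtain ⟨j, rfl⟩ := Nat.exists_eq_succ_of_ne_zero (n := n) (by rintro rfl; simp at hk)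
  rw [Nat.succ_eq_add_one, pow_succ]
  exact nu_mul_left (V.pow_mem (nu_mem hπ) j) hπ

theorem HasOrd.unique {π z : L} {k l : ℤ} (hπ : π ∈ V.nonunits) (hπ0 : π ≠ 0)
    (h : HasOrd V π z k) (h' : HasOrd V π z l) : k = l := by
  have key : ∀ {k l : ℤ}, HasOrd V π z k → HasOrd V π z l → ¬ k < l := by
    intro k l h h' hlt
    have h1 : π ^ (l - k) ∈ V.nonunits := zpow_mem_nu hπ (sub_pos.2 hlt)
    have h2 : (π ^ (l - k))⁻¹ ∈ V := by
      have := V.mul_mem _ _ h'.2.1 h.2.2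
      have e : z / π ^ l * (π ^ k / z) = (π ^ (l - k))⁻¹ := by
        rw [zpow_sub₀ hπ0]
        have := h.1
        have h3 : π ^ l ≠ 0 := zpow_ne_zero _ hπ0
        have h4 : π ^ k ≠ 0 := zpow_ne_zero _ hπ0
        field_simp
      rwa [e] at this
    exact not_nu_of_inv_mem (zpow_ne_zero _ hπ0) h2 h1
  exact le_antisymm (not_lt.1 (key h' h)) (not_lt.1 (key h h'))

theorem HasOrd.of_near {π x y : L} {k : ℤ} (h : Near V x y) (hy : HasOrd V π y k) :
    HasOrd V π x k := by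
  refine ⟨h.left_ne, ?_, ?_⟩
  · have := V.mul_mem _ _ h.2.mem hy.2.1
    rwa [div_mul_div_cancel₀ h.1] at this
  · have := V.mul_mem _ _ hy.2.2 h.2.inv_mem
    rwa [inv_div, div_mul_div_cancel₀ h.1] at this

theorem HasOrd.mem_of_nonneg {π z : L} {k : ℤ} (hπ : π ∈ V) (hπ0 : π ≠ 0) (h : HasOrd V π z k)
    (hk : 0 ≤ k) : z ∈ V := by
  obtain ⟨n, rfl⟩ := Int.eq_ofNat_of_zero_le hk
  have := V.mul_mem _ _ h.2.1 (V.pow_mem hπ n)
  rwa [zpow_natCast, div_mul_cancel₀ _ (pow_ne_zero _ hπ0)] at this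

theorem HasOrd.nu_of_pos {π z : L} {k : ℤ} (hπ : π ∈ V.nonunits) (hπ0 : π ≠ 0) (h : HasOrd V π z k)
    (hk : 0 < k) : z ∈ V.nonunits := by
  have := nu_mul_left h.2.1 (zpow_mem_nu hπ hk)
  rwa [div_mul_cancel₀ _ (zpow_ne_zero _ hπ0)] at this

theorem HasOrd.nonneg_of_mem {π z : L} {k : ℤ} (hπ : π ∈ V.nonunits) (hπ0 : π ≠ 0)
    (h : HasOrd V π z k) (hz : z ∈ V) : 0 ≤ k := by
  by_contra hk
  have h1 : z⁻¹ ∈ V.nonunits := h.inv.nu_of_pos hπ hπ0 (by omega)
  exact not_nu_of_inv_mem (inv_ne_zero h.1) (by rwa [inv_inv]) h1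

theorem HasOrd.pos_of_nu {π z : L} {k : ℤ} (hπ : π ∈ V.nonunits) (hπ0 : π ≠ 0)
    (h : HasOrd V π z k) (hz : z ∈ V.nonunits) : 0 < k := by
  by_contra hk
  have h1 : z⁻¹ ∈ V := h.inv.mem_of_nonneg (nu_mem hπ) hπ0 (by omega)
  exact not_nu_of_inv_mem h.1 h1 hz

theorem IsUnif.div_mem {π z : L} (hπ : IsUnif V π) (hz : z ∈ V.nonunits) : z / π ∈ V := by
  by_cases hz0 : z = 0
  · rw [hz0, zero_div]; exact V.zero_mem
  obtain ⟨k, hk⟩ := hπ.exists_ord z hz0
  have hk0 := hk.pos_of_nu hπ.mem hπ.ne_zero hz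
  exact (hk.div hπ.ne_zero (hasOrd_self hπ.ne_zero)).mem_of_nonneg (nu_mem hπ.mem) hπ.ne_zero
    (by omega)

end

section
variable {K1 L : Type*} [Field K1] [Field L]

theorem one1_comap_iff (f : K1 →+* L) (V : ValuationSubring L) (x : K1) :
    One1 (V.comap f) x ↔ One1 V (f x) := by
  unfold One1
  rw [nu_comap_iff, map_sub, map_one]

theorem near_comap_iff (f : K1 →+* L) (V : ValuationSubring L) (x y : K1) :
    Near (V.comap f) x y ↔ Near V (f x) (f y) := by
  unfold Near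
  rw [one1_comap_iff, map_div₀, ne_eq, ne_eq, map_eq_zero]

theorem hasOrd_comap_iff (f : K1 →+* L) (V : ValuationSubring L) (π z : K1) (k : ℤ) :
    HasOrd (V.comap f) π z k ↔ HasOrd V (f π) (f z) k := by
  unfold HasOrd
  rw [ValuationSubring.mem_comap, ValuationSubring.mem_comap, map_div₀, map_div₀, map_zpow₀, ne_eq,
    ne_eq, map_eq_zero]

end

end Fermat.Agent.S36.Norm
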