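import Fermat.Agent.S36.Norm.Basic

set_option autoImplicit false

/-!
# S36 / Norm / DVR : `IsUnif` versus Mathlib's `IsDiscreteValuationRing`; extensions   (task N-DVR)

SKETCH.
* `IsUnif.isDVR`: `IsDiscreteValuationRing.ofHasUnitMulPowIrreducibleFactorization`: `p := ⟨π, _⟩`; irreducible (`IsUnif.irreducible`:
  not a unit since `π ∈ 𝔪`; if `π = a b` with orders `k, l ≥ 0`, `k + l = 1` (`HasOrd.mul`, `HasOrd.unique`), so one of them has order `0`, i.e. is a
  unit); for `x ≠ 0` in `V`, `HasOrd V π x k`, `k ≥ 0` (`HasOrd.nonneg_of_mem`), `x = π^k * unit`.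
* `isUnit_iff`: `a : V` is a unit iff `(a : L) ∉ V.nonunits` (Mathlib: `ValuationSubring.coe_mem_nonunits_iff`, `IsLocalRing.mem_maximalIdeal`).
* `isUnif_of_ext`: `z ≠ 0` in `L` is algebraic over `K1`.  First for `z ∈ V`: take a nonzero polynomial relation with coefficients in `K1`, nonzero
  constant term (`minpoly`, `minpoly.coeff_zero_ne_zero`), clear denominators with a power of `ϖ` (each coefficient has an order) so that all coefficients lie in `V'`:
  `a₀ = - z * (a₁ + a₂ z + ⋯)`, so `a₀ / z ∈ V`; `a₀ = ϖ^r * unit`, and `ϖ ∈ V`: `ϖ^r / z ∈ V`.  Then by induction on `r' ` (`= ` any `N` with `π^N / z ∈ V`;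
  `ϖ / π ∈ V` because `ϖ ∈ 𝔪_V`, hence `ϖ^r/π^r ∈ V`… use instead directly: `S := {n : ℕ | z / π^n ∈ V}` is bounded: if `z/π^n ∈ V` and `ϖ^r / z ∈ V` then `ϖ^r/π^n ∈ V`; and
  `π^e'/ϖ`…).  SIMPLER: hypothesis `hram : π ^ e / ϖ ∈ V` is given.  Then `π^(e r)/z ∈ V`.  Strong induction on `N` : `z ∈ V`, `π^N / z ∈ V` ⟹ `∃ k, HasOrd V π z k`: if `z` is
  a unit `k = 0`; otherwise `z / π ∈ V` (`hdiv`), `N ≥ 1` (else `1/z ∈ V`) and `π^(N-1)/(z/π) = π^N/z`.  For `z ∉ V` apply this to `z⁻¹` and `HasOrd.inv`.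
-/

noncomputable section

namespace Fermat.Agent.S36.Norm

section
variable {L : Type*} [Field L] {V : ValuationSubring L}

theorem isUnit_iff_not_nu (a : V) : IsUnit a ↔ (a : L) ∉ V.nonunits := by
  rw [ValuationSubring.coe_mem_nonunits_iff, IsLocalRing.mem_maximalIdeal, mem_nonunits_iff, not_not]

theorem IsUnif.irreducible {π : L} (hπ : IsUnif V π) : Irreducible (⟨π, nu_mem hπ.mem⟩ : V) := by
  constructor
  · rw [isUnit_iff_not_nu, not_not]
    exact hπ.mem
  · intro a b hab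
    have hab' : π = (a : L) * (b : L) := congrArg Subtype.val hab
    have ha0 : (a : L) ≠ 0 := by
      intro h
      rw [h, zero_mul] at hab'
      exact hπ.ne_zero hab'
    have hb0 : (b : L) ≠ 0 := by
      intro h
      rw [h, mul_zero] at hab'
      exact hπ.ne_zero hab'
    obtain ⟨k, hk⟩ := hπ.exists_ord _ ha0
    obtain ⟨l, hl⟩ := hπ.exists_ord _ hb0
    have hk0 := hk.nonneg_of_mem hπ.mem hπ.ne_zero a.2
    have hl0 := hl.nonneg_of_mem hπ.mem hπ.ne_zero b.2
    have h1 := hk.mul hπ.ne_zero hl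
    rw [← hab'] at h1
    have h2 : k + l = 1 := h1.unique hπ.mem hπ.ne_zero (hasOrd_self hπ.ne_zero)
    have h3 : k = 0 ∨ l = 0 := by omega
    rcases h3 with rfl | rfl
    · left
      rw [isUnit_iff_not_nu]
      exact not_nu_of_inv_mem ha0 (hasOrd_zero_iff.1 hk).2.2
    · right
      rw [isUnit_iff_not_nu]
      exact not_nu_of_inv_mem hb0 (hasOrd_zero_iff.1 hl).2.2

theorem IsUnif.isDVR {π : L} (hπ : IsUnif V π) : IsDiscreteValuationRing V := by
  apply IsDiscreteValuationRing.ofHasUnitMulPowIrreducibleFactorization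
  refine ⟨⟨π, nu_mem hπ.mem⟩, hπ.irreducible, ?_⟩
  intro x hx
  have hx0 : (x : L) ≠ 0 := fun h => hx (Subtype.ext h)
  obtain ⟨k, hk⟩ := hπ.exists_ord _ hx0
  obtain ⟨n, rfl⟩ := Int.eq_ofNat_of_zero_le (hk.nonneg_of_mem hπ.mem hπ.ne_zero x.2)
  have hpn : π ^ n ≠ 0 := pow_ne_zero n hπ.ne_zero
  have h1 : (x : L) / π ^ n ∈ V := by
    have := hk.2.1
    rwa [zpow_natCast] at this
  have h2 : π ^ n / (x : L) ∈ V := by
    have := hk.2.2
    rwa [zpow_natCast] at this
  refine ⟨n, ⟨⟨⟨_, h1⟩, ⟨_, h2⟩, ?_, ?_⟩, ?_⟩⟩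
  · apply Subtype.ext
    show (x : L) / π ^ n * (π ^ n / (x : L)) = 1
    field_simp
  · apply Subtype.ext
    show π ^ n / (x : L) * ((x : L) / π ^ n) = 1
    field_simp
  · apply Subtype.ext
    show π ^ n * ((x : L) / π ^ n) = (x : L)
    field_simp

end

section
variable {K1 L : Type*} [Field K1] [Field L] [Algebra K1 L]

/-- a valuation subring of a finite extension lying over a discrete one, with principal maximal ideal,
is discrete. -/
theorem isUnif_of_ext [FiniteDimensional K1 L] {V' : ValuationSubring K1} {ϖ : K1}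
    (hϖ : IsUnif V' ϖ) {V : ValuationSubring L} (hV : V.comap (algebraMap K1 L) = V') {π : L}
    (hπ : π ∈ V.nonunits) (hπ0 : π ≠ 0) (hdiv : ∀ z ∈ V.nonunits, z / π ∈ V) {e : ℕ}
    (hram : π ^ e / algebraMap K1 L ϖ ∈ V) : IsUnif V π := by
  have hϖL : algebraMap K1 L ϖ ≠ 0 := (map_ne_zero _).2 hϖ.ne_zero
  have hsub : ∀ c : K1, c ∈ V' → algebraMap K1 L c ∈ V := by
    intro c hc
    rw [← hV] at hc
    exact hc
  -- step A1: a nonzero constant below `z`
  have hA1 : ∀ z ∈ V, z ≠ 0 → ∃ c : K1, c ≠ 0 ∧ algebraMap K1 L c / z ∈ V := by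
    intro z hz hz0
    have hint : IsIntegral K1 z := Algebra.IsIntegral.isIntegral z
    set P := minpoly K1 z with hP
    have ha0 : P.coeff 0 ≠ 0 := minpoly.coeff_zero_ne_zero hint hz0
    have hsum : (∑ i ∈ Finset.range P.natDegree, algebraMap K1 L (P.coeff (i + 1)) * z ^ (i + 1)) =
        - algebraMap K1 L (P.coeff 0) := by
      have h1 : Polynomial.aeval z P = 0 := minpoly.aeval K1 z
      rw [Polynomial.aeval_eq_sum_range, Finset.sum_range_succ'] at h1
      simp only [Algebra.smul_def, pow_zero, mul_one] at h1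
      exact eq_neg_of_add_eq_zero_left h1
    have hv0 : V.valuation (algebraMap K1 L (P.coeff 0)) ≠ 0 :=
      (Valuation.ne_zero_iff _).2 ((map_ne_zero _).2 ha0)
    have hex : ∃ i ∈ Finset.range P.natDegree, V.valuation (algebraMap K1 L (P.coeff 0)) ≤
        V.valuation (algebraMap K1 L (P.coeff (i + 1)) * z ^ (i + 1)) := by
      by_contra hcon
      push Not at hcon
      have h2 := Valuation.map_sum_lt V.valuation hv0 hcon
      rw [hsum, Valuation.map_neg] at h2
      exact lt_irrefl _ h2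
    obtain ⟨i, -, hi⟩ := hex
    have hai : P.coeff (i + 1) ≠ 0 := by
      intro h
      rw [h, map_zero, zero_mul, map_zero] at hi
      exact hv0 (le_antisymm hi zero_le)
    have haiL : algebraMap K1 L (P.coeff (i + 1)) ≠ 0 := (map_ne_zero _).2 hai
    refine ⟨P.coeff 0 / P.coeff (i + 1), div_ne_zero ha0 hai, ?_⟩
    have hzle : V.valuation z ≤ 1 := (V.valuation_le_one_iff z).2 hz
    have hvz : 0 < V.valuation z := zero_lt_iff.2 ((Valuation.ne_zero_iff _).2 hz0)
    have hvai : 0 < V.valuation (algebraMap K1 L (P.coeff (i + 1))) :=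
      zero_lt_iff.2 ((Valuation.ne_zero_iff _).2 haiL)
    rw [← V.valuation_le_one_iff, map_div₀, map_div₀, map_div₀, div_le_one₀ hvz,
      div_le_iff₀ hvai]
    refine hi.trans ?_
    rw [map_mul, map_pow, mul_comm, pow_succ']
    refine mul_le_mul_left ?_ _
    calc V.valuation z * V.valuation z ^ i ≤ V.valuation z * 1 :=
          mul_le_mul_right (pow_le_one₀ zero_le hzle) _
      _ = V.valuation z := mul_one _
  -- step A2: a power of `π` below `z`
  have hA2 : ∀ z ∈ V, z ≠ 0 → ∃ N : ℕ, π ^ N / z ∈ V := by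
    intro z hz hz0
    obtain ⟨c, hc0, hc⟩ := hA1 z hz hz0
    obtain ⟨k, hk⟩ := hϖ.exists_ord c hc0
    have h1 : algebraMap K1 L (ϖ ^ k / c) ∈ V := hsub _ hk.2.2
    have h2 : algebraMap K1 L ϖ ^ k / z ∈ V := by
      have := V.mul_mem _ _ h1 hc
      rw [map_div₀, map_zpow₀, div_mul_div_cancel₀ ((map_ne_zero _).2 hc0)] at this
      exact this
    have hϖV : algebraMap K1 L ϖ ∈ V := hsub _ (nu_mem hϖ.mem)
    have h3 : algebraMap K1 L ϖ ^ k.toNat / z ∈ V := by
      have h4 : algebraMap K1 L ϖ ^ k.toNat / z =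
          algebraMap K1 L ϖ ^ (k.toNat - k).toNat * (algebraMap K1 L ϖ ^ k / z) := by
        rw [← zpow_natCast, ← zpow_natCast, ← mul_div_assoc, ← zpow_add₀ hϖL]
        congr 2
        omega
      rw [h4]
      exact V.mul_mem _ _ (V.pow_mem hϖV _) h2
    refine ⟨e * k.toNat, ?_⟩
    have h5 : π ^ (e * k.toNat) / z =
        (π ^ e / algebraMap K1 L ϖ) ^ k.toNat * (algebraMap K1 L ϖ ^ k.toNat / z) := by
      rw [div_pow, ← pow_mul, div_mul_div_cancel₀ (pow_ne_zero _ hϖL)]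
    rw [h5]
    exact V.mul_mem _ _ (V.pow_mem hram _) h3
  -- step B
  have hB : ∀ N : ℕ, ∀ z ∈ V, z ≠ 0 → π ^ N / z ∈ V → ∃ k : ℤ, HasOrd V π z k := by
    intro N
    induction N with
    | zero =>
      intro z hz hz0 h
      rw [pow_zero, one_div] at h
      exact ⟨0, hasOrd_zero_iff.2 ⟨hz0, hz, h⟩⟩
    | succ N ih =>
      intro z hz hz0 h
      by_cases hzn : z ∈ V.nonunits
      · have h1 : π ^ N / (z / π) ∈ V := by
          have : π ^ N / (z / π) = π ^ (N + 1) / z := by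
            rw [pow_succ]
            field_simp
          rw [this]
          exact h
        obtain ⟨k, hk⟩ := ih (z / π) (hdiv z hzn) (div_ne_zero hz0 hπ0) h1
        refine ⟨k + 1, ?_⟩
        have := hk.mul hπ0 (hasOrd_self hπ0)
        rwa [div_mul_cancel₀ _ hπ0] at this
      · exact ⟨0, hasOrd_zero_iff.2 ⟨hz0, hz, inv_mem_of_not_nu hzn⟩⟩
  refine ⟨hπ, hπ0, ?_⟩
  intro z hz0
  rcases V.mem_or_inv_mem z with hz | hz
  · obtain ⟨N, hN⟩ := hA2 z hz hz0
    exact hB N z hz hz0 hN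
  · obtain ⟨N, hN⟩ := hA2 z⁻¹ hz (inv_ne_zero hz0)
    obtain ⟨k, hk⟩ := hB N z⁻¹ hz (inv_ne_zero hz0) hN
    refine ⟨-k, ?_⟩
    have := hk.inv
    rwa [inv_inv] at this

end

end Fermat.Agent.S36.Norm
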