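import Fermat.Agent.S36.Norm.DVR
import Fermat.Agent.S34.V2.Count

set_option autoImplicit false

/-!
# S36 / Norm / RadCount : the `Rad` situation: independence of the powers of `t`, counting   (tasks N-RadIndep, N-RadCount)

SKETCH.
* `frob_inj` (any valuation subring `𝒪` with `(q : Ω) ∈ 𝔪`, `q` prime): `One1 𝒪 (c^q) → One1 𝒪 c`.  `c ∈ 𝒪` (if not, `c⁻¹ ∈ 𝔪`, `(c⁻¹)^q ∈ 𝔪`, but `c^q` is a unit).
  `(c - 1)^q = (c^q - 1) + q * (element of 𝒪)` (`sub_pow_char`-type: work in `IsLocalRing.ResidueField 𝒪`, which has `CharP _ q` by `CharP.charP_iff_prime_eq_zero`; `sub_pow_char`/`frobenius_inj`),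
  so `(c-1)^q ∈ 𝔪`, `nu_of_pow`.
* `Rad.indep` (N-RadIndep): residue fields `κ' = IsLocalRing.ResidueField V'`, `κ = IsLocalRing.ResidueField V`, the local hom `V' → V` (from `h.comap`) induces `κ' → κ`
  (`IsLocalRing.ResidueField.map`), use it as an `Algebra`.  `t̄^q = ȳ₀`; no `b ∈ κ'` has `b^q = ȳ₀` (else `(t̄ - b)^q = 0` in char `q`, so `t - b̃ ∈ 𝔪_V`, contradicting `t_not`);
  `X_pow_sub_C_irreducible_of_prime` ⟹ `X^q - C ȳ₀` irreducible, `= minpoly κ' t̄` (`minpoly.eq_of_irreducible_of_monic`); a nonzero polynomial of degree `< q` cannot kill `t̄` (`minpoly.degree_le_of_ne_zero`).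
  ELEMENTARY ALTERNATIVE: none shorter.
* `Rad.*` (N-RadCount): instantiate `S34.V2.count_*` with `A₀ := ↥V'`, `ι := Unit` (or `Fin 1`), `e = 1`, `f = q`, `π = algebraMap ϖ`, `b _ k = t^k`.
  `all` = `count_all`; `unif` = `isUnif_of_ext` + `count_unif` + `count_ram`; `frob`: `count_span` gives `z ≡ ∑ a_k t^k`; in char `q`: `z^q ≡ ∑ a_k^q (t^q)^k ≡ ∑ a_k^q y₀^k` (residue field of `V`, `sum_pow_char`).
  `finrank_eq`: `1, t, …, t^(q-1)` are linearly independent over `K1` (scale a relation by a power of `ϖ` so that all coefficients are in `V'` and one is a unit; `indep`), so `q ≤ finrank`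
  (`LinearIndependent.fintype_card_le_finrank`).
-/

noncomputable section

namespace Fermat.Agent.S36.Norm

namespace RadAux

section
variable {Ω : Type*} [Field Ω] {𝒪 : ValuationSubring Ω}

theorem nu_iff_residue (a : 𝒪) : (a : Ω) ∈ 𝒪.nonunits ↔ IsLocalRing.residue 𝒪 a = 0 := by
  rw [ValuationSubring.coe_mem_nonunits_iff, IsLocalRing.residue_eq_zero_iff]

theorem charP_residue {q : ℕ} (hq : q.Prime) (hq𝒪 : (q : Ω) ∈ 𝒪.nonunits) :
    CharP (IsLocalRing.ResidueField 𝒪) q := by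
  rw [CharP.charP_iff_prime_eq_zero hq]
  have h1 : (((q : ℕ) : 𝒪) : Ω) ∈ 𝒪.nonunits := by
    have : (((q : ℕ) : 𝒪) : Ω) = (q : Ω) := by simp
    rw [this]; exact hq𝒪
  have h2 := (nu_iff_residue ((q : ℕ) : 𝒪)).1 h1
  rwa [map_natCast] at h2

theorem pow_mem_nu {c : Ω} (hc : c ∈ 𝒪.nonunits) {q : ℕ} (hq : 0 < q) : c ^ q ∈ 𝒪.nonunits := by
  obtain ⟨s, rfl⟩ : ∃ s, q = s + 1 := ⟨q - 1, by omega⟩
  rw [pow_succ]
  exact nu_mul_left (𝒪.pow_mem (nu_mem hc) s) hc

end

end RadAux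

open RadAux in
/-- Frobenius is injective on the residue field. -/
theorem frob_inj {Ω : Type*} [Field Ω] {𝒪 : ValuationSubring Ω} {q : ℕ} (hq : q.Prime)
    (hq𝒪 : (q : Ω) ∈ 𝒪.nonunits) {c : Ω} (hc : One1 𝒪 (c ^ q)) : One1 𝒪 c := by
  have hcm : c ∈ 𝒪 := by
    by_contra hn
    have h1 : c⁻¹ ∈ 𝒪.nonunits := by
      rw [nu_iff]; right; rwa [inv_inv]
    have h2 : (c ^ q)⁻¹ ∈ 𝒪.nonunits := by
      rw [← inv_pow]
      exact pow_mem_nu h1 hq.pos
    exact hc.inv.not_nu h2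
  haveI := charP_residue hq hq𝒪
  haveI : Fact q.Prime := ⟨hq⟩
  have h3 : IsLocalRing.residue 𝒪 ((⟨c, hcm⟩ : 𝒪) ^ q - 1) = 0 := by
    rw [← nu_iff_residue]
    exact hc
  have h4 : frobenius _ q (IsLocalRing.residue 𝒪 (⟨c, hcm⟩ : 𝒪)) = frobenius _ q 1 := by
    rw [frobenius_def, frobenius_def, one_pow]
    rw [map_sub, map_pow, map_one, sub_eq_zero] at h3
    exact h3
  have h5 : IsLocalRing.residue 𝒪 (⟨c, hcm⟩ : 𝒪) = 1 := frobenius_inj _ q h4
  have h6 : (((⟨c, hcm⟩ : 𝒪) - 1 : 𝒪) : Ω) ∈ 𝒪.nonunits := by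
    rw [nu_iff_residue, map_sub, map_one, h5, sub_self]
  exact h6

variable {K1 L : Type*} [Field K1] [CharZero K1] [Field L] [Algebra K1 L] {q : ℕ}
  {V' : ValuationSubring K1} {ϖ : K1} {V : ValuationSubring L} {t : L} {y₀ : K1}

namespace RadAux

theorem map_mem (hc : V.comap (algebraMap K1 L) = V') {x : K1} (hx : x ∈ V') :
    algebraMap K1 L x ∈ V := by
  rw [← hc] at hx
  exact hx

theorem map_nu_iff (hc : V.comap (algebraMap K1 L) = V') (x : K1) :
    algebraMap K1 L x ∈ V.nonunits ↔ x ∈ V'.nonunits := by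
  rw [← hc, nu_comap_iff]

/-- the inclusion `V' → V`. -/
def f0 (hc : V.comap (algebraMap K1 L) = V') : V' →+* V :=
  ((algebraMap K1 L).comp V'.subtype).codRestrict V.toSubring (fun x => map_mem hc x.2)

theorem coe_f0 (hc : V.comap (algebraMap K1 L) = V') (x : V') :
    ((f0 hc x : V) : L) = algebraMap K1 L (x : K1) := rfl

theorem residue_f0_eq_zero_iff (hc : V.comap (algebraMap K1 L) = V') (x : V') :
    IsLocalRing.residue V (f0 hc x) = 0 ↔ IsLocalRing.residue V' x = 0 := by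
  rw [← nu_iff_residue, ← nu_iff_residue, coe_f0, map_nu_iff hc]

instance isLocalHom_f0 (hc : V.comap (algebraMap K1 L) = V') :
    IsLocalHom ((IsLocalRing.residue V).comp (f0 hc)) where
  map_nonunit x hx := by
    by_contra hn
    have h1 : IsLocalRing.residue V' x = 0 := by
      rw [IsLocalRing.residue_eq_zero_iff]
      exact (IsLocalRing.mem_maximalIdeal x).2 hn
    have h2 := (residue_f0_eq_zero_iff hc x).2 h1
    rw [RingHom.comp_apply, h2] at hx
    exact not_isUnit_zero hx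

/-- the map of residue fields. -/
def g0 (hc : V.comap (algebraMap K1 L) = V') :
    IsLocalRing.ResidueField V' →+* IsLocalRing.ResidueField V :=
  IsLocalRing.ResidueField.lift ((IsLocalRing.residue V).comp (f0 hc))

theorem g0_residue (hc : V.comap (algebraMap K1 L) = V') (x : V') :
    g0 hc (IsLocalRing.residue V' x) = IsLocalRing.residue V (f0 hc x) := rfl

end RadAux

open RadAux Polynomial in
theorem Rad.indep (h : Rad q V' ϖ V t y₀) (hq : q.Prime) (a : Fin q → K1) (ha : ∀ k, a k ∈ V')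
    (hs : ∑ k, algebraMap K1 L (a k) * t ^ (k : ℕ) ∈ V.nonunits) : ∀ k, a k ∈ V'.nonunits := by
  have hc := h.comap
  have hqV : ((q : ℕ) : L) ∈ V.nonunits := by
    have := (map_nu_iff hc (q : K1)).2 h.q_mem
    rwa [map_natCast] at this
  haveI := charP_residue hq hqV
  haveI : Fact q.Prime := ⟨hq⟩
  set tb : IsLocalRing.ResidueField V := IsLocalRing.residue V ⟨t, h.t_mem⟩ with htb
  set yb : IsLocalRing.ResidueField V' := IsLocalRing.residue V' ⟨y₀, h.y_mem⟩ with hyb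
  have htq : tb ^ q = g0 hc yb := by
    rw [htb, hyb, g0_residue, ← map_pow, ← sub_eq_zero, ← map_sub, ← nu_iff_residue]
    exact h.t_pow
  have hno : ∀ b : IsLocalRing.ResidueField V', b ^ q ≠ yb := by
    intro b hb
    obtain ⟨β, rfl⟩ := IsLocalRing.residue_surjective b
    have h1 : (tb - g0 hc (IsLocalRing.residue V' β)) ^ q = 0 := by
      rw [sub_pow_char, htq, ← hb, map_pow, sub_self]
    have h2 : tb - g0 hc (IsLocalRing.residue V' β) = 0 := pow_eq_zero_iff hq.ne_zero |>.1 h1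
    rw [htb, g0_residue, ← map_sub, ← nu_iff_residue] at h2
    exact h.t_not β β.2 h2
  have hirr : Irreducible (X ^ q - C yb) := X_pow_sub_C_irreducible_of_prime hq hno
  set P : (IsLocalRing.ResidueField V')[X] :=
    ∑ k : Fin q, C (IsLocalRing.residue V' ⟨a k, ha k⟩) * X ^ (k : ℕ) with hP
  have hPdeg : P.degree < q := degree_sum_fin_lt _
  have hPev : P.eval₂ (g0 hc) tb = 0 := by
    rw [hP, eval₂_finset_sum]
    have e : ∀ k : Fin q, eval₂ (g0 hc) tb (C (IsLocalRing.residue V' ⟨a k, ha k⟩) * X ^ (k : ℕ))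
        = IsLocalRing.residue V (f0 hc ⟨a k, ha k⟩ * ⟨t, h.t_mem⟩ ^ (k : ℕ)) := by
      intro k
      rw [eval₂_mul, eval₂_C, eval₂_pow, eval₂_X, g0_residue, map_mul, map_pow]
    rw [Finset.sum_congr rfl fun k _ => e k, ← map_sum, ← nu_iff_residue]
    have e2 : ((∑ k : Fin q, f0 hc ⟨a k, ha k⟩ * (⟨t, h.t_mem⟩ : V) ^ (k : ℕ) : V) : L)
        = ∑ k, algebraMap K1 L (a k) * t ^ (k : ℕ) := by
      rw [AddSubmonoidClass.coe_finset_sum]
      rfl
    rw [e2]
    exact hs
  have hP0 : P = 0 := by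
    by_contra hne
    have hnd : ¬ (X ^ q - C yb) ∣ P := by
      intro hd
      have h1 := degree_le_of_dvd hd hne
      rw [degree_X_pow_sub_C hq.pos] at h1
      exact absurd hPdeg (not_lt.2 h1)
    obtain ⟨u, v, huv⟩ := (hirr.coprime_iff_not_dvd).2 hnd
    have h2 := congrArg (eval₂ (g0 hc) tb) huv
    rw [eval₂_add, eval₂_mul, eval₂_mul, hPev, eval₂_sub, eval₂_pow, eval₂_X, eval₂_C, htq, sub_self,
      mul_zero, mul_zero, add_zero, eval₂_one] at h2
    exact zero_ne_one h2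
  intro k
  have h3 : P.coeff (k : ℕ) = IsLocalRing.residue V' ⟨a k, ha k⟩ := by
    rw [hP, finset_sum_coeff]
    rw [Finset.sum_eq_single k]
    · rw [coeff_C_mul, coeff_X_pow, if_pos rfl, mul_one]
    · intro j _ hj
      rw [coeff_C_mul, coeff_X_pow, if_neg (fun hh => hj (Fin.ext hh.symm)), mul_zero]
    · intro hk; exact absurd (Finset.mem_univ k) hk
  rw [hP0, coeff_zero] at h3
  exact (nu_iff_residue (⟨a k, ha k⟩ : V')).2 h3.symm

namespace RadAux

theorem extData (h : Rad q V' ϖ V t y₀) (hq : q.Prime) :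
    S34.V2.ExtData V' V 1 (algebraMap K1 L ϖ) (fun k : Fin q => t ^ (k : ℕ)) where
  mem a := map_mem h.comap a.2
  nonunit a ha := by
    rw [isUnit_iff_not_nu, not_not] at ha
    exact (map_nu_iff h.comap _).2 ha
  pi_ne := (map_ne_zero _).2 h.unif.ne_zero
  pi_mem := (map_nu_iff h.comap _).2 h.unif.mem
  pi_dvd a ha := by
    rw [isUnit_iff_not_nu, not_not] at ha
    have h1 := map_mem h.comap (h.unif.div_mem ha)
    rw [map_div₀] at h1
    rw [pow_one]
    exact h1
  b_mem k := V.pow_mem h.t_mem _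
  indep a hs k := by
    rw [isUnit_iff_not_nu, not_not]
    exact h.indep hq (fun k => (a k : K1)) (fun k => (a k).2) hs k

theorem hsum (h : Rad q V' ϖ V t y₀) :
    Module.finrank K1 L ≤ ∑ _i : Unit, 1 * q := by
  simpa using h.finrank_le

end RadAux

open RadAux in
theorem Rad.all (h : Rad q V' ϖ V t y₀) (hq : q.Prime) (W : ValuationSubring L)
    (hW : W.comap (algebraMap K1 L) = V') : W = V := by
  haveI := h.unif.isDVR
  haveI := h.fin
  obtain ⟨_, hi⟩ := S34.V2.count_all (A₀ := V') (K1 := K1) (fun _ : Unit => V)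
    (fun _ _ _ => rfl) (fun _ => 1) (fun _ => q) (fun _ => algebraMap K1 L ϖ)
    (fun _ k => t ^ (k : ℕ)) (fun _ => extData h hq) (hsum h) W
    (fun a => map_mem hW a.2)
    (fun a ha => by
      rw [isUnit_iff_not_nu, not_not] at ha
      exact (map_nu_iff hW _).2 ha)
  exact hi

open RadAux in
theorem Rad.unif' (h : Rad q V' ϖ V t y₀) (hq : q.Prime) : IsUnif V (algebraMap K1 L ϖ) := by
  haveI := h.unif.isDVR
  haveI := h.fin
  have hϖ0 : algebraMap K1 L ϖ ≠ 0 := (map_ne_zero _).2 h.unif.ne_zero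
  refine isUnif_of_ext h.unif h.comap ((map_nu_iff h.comap _).2 h.unif.mem) hϖ0 ?_ (e := 1) ?_
  · intro z hz
    exact S34.V2.count_unif (A₀ := V') (K1 := K1) (fun _ : Unit => V)
      (fun _ _ _ => rfl) (fun _ => 1) (fun _ => q) (fun _ => algebraMap K1 L ϖ)
      (fun _ k => t ^ (k : ℕ)) (fun _ => extData h hq) (hsum h) () z hz
  · rw [pow_one, div_self hϖ0]
    exact V.one_mem

open RadAux in
theorem Rad.frob (h : Rad q V' ϖ V t y₀) (hq : q.Prime) {z : L} (hz : z ∈ V) :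
    ∃ y ∈ V', z ^ q - algebraMap K1 L y ∈ V.nonunits := by
  haveI := h.unif.isDVR
  haveI := h.fin
  have hc := h.comap
  have hqV : ((q : ℕ) : L) ∈ V.nonunits := by
    have := (map_nu_iff hc (q : K1)).2 h.q_mem
    rwa [map_natCast] at this
  haveI := charP_residue hq hqV
  haveI : Fact q.Prime := ⟨hq⟩
  obtain ⟨a, ha⟩ := S34.V2.count_span (A₀ := V') (K1 := K1) (fun _ : Unit => V)
    (fun _ _ _ => rfl) (fun _ => 1) (fun _ => q) (fun _ => algebraMap K1 L ϖ)
    (fun _ k => t ^ (k : ℕ)) (fun _ => extData h hq) (hsum h) () z hz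
  set Y : V' := ∑ k : Fin q, a k ^ q * (⟨y₀, h.y_mem⟩ : V') ^ (k : ℕ) with hY
  refine ⟨(Y : K1), Y.2, ?_⟩
  have h1 : IsLocalRing.residue V ⟨z, hz⟩
      = ∑ k : Fin q, IsLocalRing.residue V (f0 hc (a k)) *
          IsLocalRing.residue V ⟨t, h.t_mem⟩ ^ (k : ℕ) := by
    have e : ∑ k : Fin q, IsLocalRing.residue V (f0 hc (a k)) *
          IsLocalRing.residue V ⟨t, h.t_mem⟩ ^ (k : ℕ)
        = IsLocalRing.residue V (∑ k : Fin q, f0 hc (a k) * (⟨t, h.t_mem⟩ : V) ^ (k : ℕ)) := by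
      rw [map_sum]
      refine Finset.sum_congr rfl fun k _ => ?_
      rw [map_mul, map_pow]
    rw [e, ← sub_eq_zero, ← map_sub, ← nu_iff_residue]
    have e2 : (((⟨z, hz⟩ : V) - ∑ k : Fin q, f0 hc (a k) * (⟨t, h.t_mem⟩ : V) ^ (k : ℕ) : V) : L)
        = z - ∑ k : Fin q, algebraMap V' L (a k) * t ^ (k : ℕ) := by
      rw [AddSubgroupClass.coe_sub, AddSubmonoidClass.coe_finset_sum]
      rfl
    rw [e2]
    exact ha
  have htq : IsLocalRing.residue V ⟨t, h.t_mem⟩ ^ q
      = IsLocalRing.residue V (f0 hc ⟨y₀, h.y_mem⟩) := by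
    rw [← map_pow, ← sub_eq_zero, ← map_sub, ← nu_iff_residue]
    exact h.t_pow
  have h2 : IsLocalRing.residue V ⟨z, hz⟩ ^ q = IsLocalRing.residue V (f0 hc Y) := by
    rw [h1, sum_pow_char, hY, map_sum, map_sum]
    refine Finset.sum_congr rfl fun k _ => ?_
    rw [mul_pow, ← pow_mul, mul_comm (k : ℕ) q, pow_mul, htq, map_mul, map_mul, map_pow, map_pow,
      map_pow, map_pow]
  have h3 : (((⟨z, hz⟩ : V) ^ q - f0 hc Y : V) : L) ∈ V.nonunits := by
    rw [nu_iff_residue, map_sub, map_pow, h2, sub_self]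
  exact h3

open RadAux in
theorem Rad.finrank_eq (h : Rad q V' ϖ V t y₀) (hq : q.Prime) : Module.finrank K1 L = q := by
  haveI := h.fin
  refine le_antisymm h.finrank_le ?_
  have hli : LinearIndependent K1 (fun k : Fin q => t ^ (k : ℕ)) := by
    rw [Fintype.linearIndependent_iff]
    intro c hc
    by_contra hne
    push_neg at hne
    obtain ⟨k1, hk1⟩ := hne
    obtain ⟨k0, -, hk0⟩ := Finset.exists_max_image Finset.univ (fun k => V'.valuation (c k))
      ⟨k1, Finset.mem_univ _⟩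
    have hc0 : c k0 ≠ 0 := by
      intro h0
      have h1 := hk0 k1 (Finset.mem_univ _)
      rw [h0, map_zero] at h1
      exact hk1 ((map_eq_zero _).1 (le_antisymm h1 zero_le'))
    have hmem : ∀ k, c k / c k0 ∈ V' := by
      intro k
      rw [← V'.valuation_le_one_iff, map_div₀]
      exact div_le_one_of_le₀ (hk0 k (Finset.mem_univ _)) zero_le'
    have hsum0 : ∑ k : Fin q, algebraMap K1 L (c k / c k0) * t ^ (k : ℕ) = 0 := by
      have e : ∑ k : Fin q, algebraMap K1 L (c k / c k0) * t ^ (k : ℕ)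
          = algebraMap K1 L (c k0)⁻¹ * ∑ k : Fin q, c k • t ^ (k : ℕ) := by
        rw [Finset.mul_sum]
        refine Finset.sum_congr rfl fun k _ => ?_
        rw [Algebra.smul_def, ← mul_assoc, ← map_mul, div_eq_inv_mul]
      rw [e, hc, mul_zero]
    have h2 := h.indep hq (fun k => c k / c k0) hmem (by rw [hsum0]; exact nu_zero) k0
    rw [div_self hc0] at h2
    exact nu_not_one h2
  simpa using hli.fintype_card_le_finrank

end Fermat.Agent.S36.Norm
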