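import Fermat.Agent.S36.Norm.DVR
import Fermat.Agent.S34.V2.Count

set_option autoImplicit false

/-!
# S36 / Norm / SplitCount : consequences of the counting lemma in the `Split` situation   (task N-SplitCount)

SKETCH.  Instantiate `Fermat.Agent.S34.V2.count_*` with `A₀ := ↥V'` (instances `Algebra V' K1`, `IsFractionRing V' K1`, `Algebra V' L`, `IsScalarTower V' K1 L` are found by
`inferInstance`; `haveI := h.unif.isDVR`, `haveI := h.fin`), `ι := Fin 2`, `V := ![Va, Vb]`, `e := ![1, q - 1]`, `f := ![1, 1]`, `π := ![algebraMap K1 L ϖ, t]`,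
`b := fun _ _ => 1`.  `algebraMap V' L a = algebraMap K1 L (a : K1)` is `rfl` (or `IsScalarTower.algebraMap_apply`).
`ExtData`: `mem`/`nonunit` from `comap_a`, `comap_b` (`ValuationSubring.mem_comap`, `nu_comap_iff`, `isUnit_iff_not_nu`); `pi_dvd` for `Va`: `a / ϖ ∈ V'` (`IsUnif.div_mem`);
for `Vb`: `a / t^(q-1) = (a/ϖ) * (ϖ / t^(q-1))`; `indep`: `a * 1 ∈ 𝔪 ⟹ a` nonunit.  `hsum`: `∑ = 1 * 1 + (q - 1) * 1 = q` (`Fin.sum_univ_two`, `2 ≤ q`).
`hV`: injectivity of `![Va, Vb]` from `h.ne`.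
Then `all` = `count_all`, `res_a/b` = `count_span`, `unif_a/b` = `isUnif_of_ext` with `count_unif`, `count_ram`; `ord_b` from `t_dvd` and `count_ram`.
`near_a`: `HasOrd Va ϖ z k`; `z / ϖ^k` is a unit, `≡ y` (`res_a`), `y` is then a unit of `V'`; `Near Va z (ϖ^k y)` (`near_iff_sub`, `Near.mul`).
`near_b`: the same with `ϖ^k` of order `(q-1) k`.
-/

noncomputable section

namespace Fermat.Agent.S36.Norm

variable {K1 L : Type*} [Field K1] [CharZero K1] [Field L] [Algebra K1 L] {q : ℕ}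
  {V' : ValuationSubring K1} {ϖ : K1} {Va Vb : ValuationSubring L} {t : L}

open Fermat.Agent.S34.V2

omit [CharZero K1] in
theorem mem_iff_of_comap {W : ValuationSubring L} (hW : W.comap (algebraMap K1 L) = V') (x : K1) :
    x ∈ V' ↔ algebraMap K1 L x ∈ W := by
  subst hW
  exact ValuationSubring.mem_comap

omit [CharZero K1] in
theorem nu_iff_of_comap {W : ValuationSubring L} (hW : W.comap (algebraMap K1 L) = V') (x : K1) :
    x ∈ V'.nonunits ↔ algebraMap K1 L x ∈ W.nonunits := by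
  subst hW
  exact nu_comap_iff _ _ _

omit [CharZero K1] in
theorem Split.ext_a (h : Split q V' ϖ Va Vb t) :
    ExtData V' Va 1 (algebraMap K1 L ϖ) (fun _ : Fin 1 => (1 : L)) where
  mem a := (mem_iff_of_comap h.comap_a _).1 a.2
  nonunit a ha := by
    rw [isUnit_iff_not_nu, not_not, nu_iff_of_comap h.comap_a] at ha
    exact ha
  pi_ne := by rw [ne_eq, map_eq_zero]; exact h.unif.ne_zero
  pi_mem := by
    exact (nu_iff_of_comap h.comap_a _).1 h.unif.mem
  pi_dvd a ha := by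
    rw [isUnit_iff_not_nu, not_not] at ha
    have h1 := h.unif.div_mem ha
    rw [mem_iff_of_comap h.comap_a, map_div₀] at h1
    rw [pow_one]
    exact h1
  b_mem _ := Va.one_mem
  indep a ha k := by
    rw [Fin.sum_univ_one, mul_one] at ha
    rw [isUnit_iff_not_nu, not_not, nu_iff_of_comap h.comap_a]
    have : k = 0 := Subsingleton.elim _ _
    rw [this]
    exact ha

omit [CharZero K1] in
theorem Split.ext_b (h : Split q V' ϖ Va Vb t) :
    ExtData V' Vb (q - 1) t (fun _ : Fin 1 => (1 : L)) where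
  mem a := (mem_iff_of_comap h.comap_b _).1 a.2
  nonunit a ha := by
    rw [isUnit_iff_not_nu, not_not, nu_iff_of_comap h.comap_b] at ha
    exact ha
  pi_ne := h.t_ne
  pi_mem := h.t_mem
  pi_dvd a ha := by
    rw [isUnit_iff_not_nu, not_not] at ha
    have h1 := h.unif.div_mem ha
    rw [mem_iff_of_comap h.comap_b, map_div₀] at h1
    have h2 := Vb.mul_mem _ _ h1 h.t_dvd
    have h0 : algebraMap K1 L ϖ ≠ 0 := by rw [ne_eq, map_eq_zero]; exact h.unif.ne_zero
    rw [div_mul_div_cancel₀ h0] at h2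
    exact h2
  b_mem _ := Vb.one_mem
  indep a ha k := by
    rw [Fin.sum_univ_one, mul_one] at ha
    rw [isUnit_iff_not_nu, not_not, nu_iff_of_comap h.comap_b]
    have : k = 0 := Subsingleton.elim _ _
    rw [this]
    exact ha

omit [CharZero K1] in
theorem Split.ext (h : Split q V' ϖ Va Vb t) (i : Fin 2) :
    ExtData V' (![Va, Vb] i) (![1, q - 1] i) (![algebraMap K1 L ϖ, t] i)
      (fun _ : Fin 1 => (1 : L)) := by
  fin_cases i
  · exact h.ext_a
  · exact h.ext_b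

omit [CharZero K1] in
theorem Split.inj (h : Split q V' ϖ Va Vb t) : Function.Injective ![Va, Vb] := by
  intro i j hij
  fin_cases i <;> fin_cases j
  · rfl
  · exact absurd hij h.ne
  · exact absurd hij.symm h.ne
  · rfl

omit [CharZero K1] in
theorem Split.sum_le (h : Split q V' ϖ Va Vb t) (hq : 2 ≤ q) :
    Module.finrank K1 L ≤ ∑ i : Fin 2, ![1, q - 1] i * (fun _ : Fin 2 => 1) i := by
  rw [Fin.sum_univ_two]
  have := h.finrank_le
  simp only [Matrix.cons_val_zero, Matrix.cons_val_one, mul_one]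
  omega

theorem Split.all (h : Split q V' ϖ Va Vb t) (hq : 2 ≤ q) (W : ValuationSubring L)
    (hW : W.comap (algebraMap K1 L) = V') : W = Va ∨ W = Vb := by
  have := h.unif.isDVR
  have := h.fin
  obtain ⟨i, hi⟩ := count_all (A₀ := V') (K1 := K1) ![Va, Vb] h.inj ![1, q - 1] (fun _ => 1)
    ![algebraMap K1 L ϖ, t] (fun _ _ => 1) h.ext (h.sum_le hq) W
    (fun a => (mem_iff_of_comap hW _).1 a.2)
    (fun a ha => by
      rw [isUnit_iff_not_nu, not_not, nu_iff_of_comap hW] at ha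
      exact ha)
  fin_cases i
  · exact Or.inl hi
  · exact Or.inr hi

theorem Split.res_a (h : Split q V' ϖ Va Vb t) (hq : 2 ≤ q) {z : L} (hz : z ∈ Va) :
    ∃ y ∈ V', z - algebraMap K1 L y ∈ Va.nonunits := by
  have := h.unif.isDVR
  have := h.fin
  obtain ⟨a, ha⟩ := count_span (A₀ := V') (K1 := K1) ![Va, Vb] h.inj ![1, q - 1] (fun _ => 1)
    ![algebraMap K1 L ϖ, t] (fun _ _ => 1) h.ext (h.sum_le hq) 0 z hz
  rw [Fin.sum_univ_one, mul_one] at ha
  exact ⟨a 0, (a 0).2, ha⟩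

theorem Split.res_b (h : Split q V' ϖ Va Vb t) (hq : 2 ≤ q) {z : L} (hz : z ∈ Vb) :
    ∃ y ∈ V', z - algebraMap K1 L y ∈ Vb.nonunits := by
  have := h.unif.isDVR
  have := h.fin
  obtain ⟨a, ha⟩ := count_span (A₀ := V') (K1 := K1) ![Va, Vb] h.inj ![1, q - 1] (fun _ => 1)
    ![algebraMap K1 L ϖ, t] (fun _ _ => 1) h.ext (h.sum_le hq) 1 z hz
  rw [Fin.sum_univ_one, mul_one] at ha
  exact ⟨a 0, (a 0).2, ha⟩

theorem Split.ram (h : Split q V' ϖ Va Vb t) (hq : 2 ≤ q) (i : Fin 2) :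
    ![algebraMap K1 L ϖ, t] i ^ (![1, q - 1] i) / algebraMap K1 L ϖ ∈ ![Va, Vb] i := by
  have := h.unif.isDVR
  have := h.fin
  exact count_ram (A₀ := V') (K1 := K1) ![Va, Vb] h.inj ![1, q - 1] (fun _ => 1)
    ![algebraMap K1 L ϖ, t] (fun _ _ => 1) h.ext (h.sum_le hq) i ⟨ϖ, nu_mem h.unif.mem⟩
    h.unif.irreducible

theorem Split.unif_a (h : Split q V' ϖ Va Vb t) (hq : 2 ≤ q) : IsUnif Va (algebraMap K1 L ϖ) := by
  have := h.unif.isDVR
  have := h.fin
  exact isUnif_of_ext h.unif h.comap_a h.ext_a.pi_mem h.ext_a.pi_ne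
    (fun z hz => count_unif (A₀ := V') (K1 := K1) ![Va, Vb] h.inj ![1, q - 1] (fun _ => 1)
      ![algebraMap K1 L ϖ, t] (fun _ _ => 1) h.ext (h.sum_le hq) 0 z hz) (h.ram hq 0)

theorem Split.unif_b (h : Split q V' ϖ Va Vb t) (hq : 2 ≤ q) : IsUnif Vb t := by
  have := h.unif.isDVR
  have := h.fin
  exact isUnif_of_ext h.unif h.comap_b h.t_mem h.t_ne
    (fun z hz => count_unif (A₀ := V') (K1 := K1) ![Va, Vb] h.inj ![1, q - 1] (fun _ => 1)
      ![algebraMap K1 L ϖ, t] (fun _ _ => 1) h.ext (h.sum_le hq) 1 z hz) (h.ram hq 1)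

theorem Split.ord_b (h : Split q V' ϖ Va Vb t) (hq : 2 ≤ q) :
    HasOrd Vb t (algebraMap K1 L ϖ) ((q : ℤ) - 1) := by
  have hqq : (q : ℤ) - 1 = ((q - 1 : ℕ) : ℤ) := by
    rw [Nat.cast_sub (by omega)]; simp
  rw [hqq]
  refine ⟨h.ext_a.pi_ne, ?_, ?_⟩
  · rw [zpow_natCast]; exact h.t_dvd
  · rw [zpow_natCast]; exact h.ram hq 1

/-- `e = f = 1`: every nonzero element of `L` is near an element of `K1` at `Va`. -/
theorem Split.near_a (h : Split q V' ϖ Va Vb t) (hq : 2 ≤ q) {z : L} (hz : z ≠ 0) :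
    ∃ y : K1, Near Va z (algebraMap K1 L y) := by
  obtain ⟨k, hk⟩ := (h.unif_a hq).exists_ord z hz
  have hϖ0 : algebraMap K1 L ϖ ≠ 0 := h.ext_a.pi_ne
  obtain ⟨y, -, hy⟩ := h.res_a hq hk.2.1
  -- `w = z / ϖ^k` is a unit
  set w := z / algebraMap K1 L ϖ ^ k with hw
  have hw0 : w ≠ 0 := div_ne_zero hz (zpow_ne_zero _ hϖ0)
  have hwinv : w⁻¹ ∈ Va := by rw [hw, inv_div]; exact hk.2.2
  have hnear : Near Va (algebraMap K1 L y) w := by
    rw [near_iff_sub hw0 hk.2.1 hwinv]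
    have := nu_neg hy
    rwa [neg_sub] at this
  refine ⟨ϖ ^ k * y, ?_⟩
  have h2 := (Near.refl (V := Va) (zpow_ne_zero k hϖ0)).mul hnear.symm
  rw [hw, mul_div_cancel₀ _ (zpow_ne_zero _ hϖ0)] at h2
  rw [map_mul, map_zpow₀]
  exact h2

/-- `f = 1`: every element of `L` whose order at `Vb` is divisible by `q - 1` is near an element of `K1`. -/
theorem Split.near_b (h : Split q V' ϖ Va Vb t) (hq : 2 ≤ q) {z : L} {k : ℤ}
    (hz : HasOrd Vb t z (((q : ℤ) - 1) * k)) : ∃ y : K1, Near Vb z (algebraMap K1 L y) := by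
  have hϖ0 : algebraMap K1 L ϖ ≠ 0 := h.ext_a.pi_ne
  have h1 : HasOrd Vb t (algebraMap K1 L ϖ ^ k) (((q : ℤ) - 1) * k) := by
    have := (h.ord_b hq).zpow h.t_ne k
    rwa [mul_comm] at this
  have h2 := hz.div h.t_ne h1
  rw [sub_self, hasOrd_zero_iff] at h2
  obtain ⟨hw0, hwm, hwinv⟩ := h2
  obtain ⟨y, -, hy⟩ := h.res_b hq hwm
  set w := z / algebraMap K1 L ϖ ^ k with hw
  have hnear : Near Vb (algebraMap K1 L y) w := by
    rw [near_iff_sub hw0 hwm hwinv]
    have := nu_neg hy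
    rwa [neg_sub] at this
  refine ⟨ϖ ^ k * y, ?_⟩
  have h2 := (Near.refl (V := Vb) (zpow_ne_zero k hϖ0)).mul hnear.symm
  rw [hw, mul_div_cancel₀ _ (zpow_ne_zero _ hϖ0)] at h2
  rw [map_mul, map_zpow₀]
  exact h2

end Fermat.Agent.S36.Norm
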