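import Fermat.Agent.S36.Norm.Basic

set_option autoImplicit false

/-!
# S36 / Norm / WA : weak approximation for finitely many discrete valuation subrings   (task N-WA)

SKETCH (via Mathlib `AbsoluteValue.denseRange_algebraMap_pi`, file `Mathlib/Analysis/AbsoluteValue/Equivalence.lean`).
* `ordU hπ z : ℤ` := the order of `z` (`Classical.choose (hπ.exists_ord z hz)`, `0` for `z = 0`).  `HasOrd V π z (ordU hπ z)` for `z ≠ 0`; uniqueness `HasOrd.unique`;
  `ordU (y z) = ordU y + ordU z` (`HasOrd.mul`); `min (ordU y) (ordU z) ≤ ordU (y + z)` if `y, z, y + z ≠ 0`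
  (say `k = ordU y ≤ ordU z`: `y/π^k, z/π^k ∈ V` (`HasOrd.mem_of_nonneg` for `z / π^k`), so `(y+z)/π^k ∈ V`, `HasOrd.nonneg_of_mem`).
* `absU hπ : AbsoluteValue L ℝ`, `z ↦ if z = 0 then 0 else (1/2 : ℝ) ^ (ordU hπ z)`  (zpow).  `add_le'` from the ultrametric inequality.
  Nontrivial: `absU π = 1/2`.   `absU z ≤ 1 ↔ z ∈ V`.  So `(absU hπ).IsEquiv (absU hπ') → V = V'`  (`AbsoluteValue.IsEquiv` : `v x ≤ v y ↔ w x ≤ w y`; take `y = 1`).
* `weak_approx`: `DenseRange` + `Metric.denseRange_iff` (as in the Mathlib proof) with radius `(1/2)^n`: `dist` on a finite product is the sup of the `dist` of the components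
  (`dist_pi_lt_iff`), and `dist` in `WithAbs (v i)` is `v i (a - b)` (`WithAbs.norm_eq_abv` / `WithAbs.dist…`, look at how `denseRange_algebraMap_pi` unfolds it).
  `absU (y - z i) < (1/2)^n ⟹ ordU > n` or `y = z i` ⟹ `(y - z i)/π^n ∈ V i`.
  ALTERNATIVE (no analysis): Artin–Whaples by hand: (1) `i ≠ j`: `∃ a ∈ V i \ V j`, `b ∈ V j \ V i`, `c = a / b ∈ 𝔪_i`, `c⁻¹ ∈ 𝔪_j`; (2) induction on the number of valuations:
  `∃ c ∈ 𝔪_1`, `c⁻¹ ∈ 𝔪_j` (`j ≠ 1`) [given `c` for `2..k-1`, `d` for `k`: `c` if `c⁻¹ ∈ 𝔪_k`; `d c^r` if `c` unit at `k`; `d (1 + c^r)` if `c ∈ 𝔪_k`; `r` large];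
  (3) `ε_r = 1/(1 + c^r) ≡ 1 mod 𝔪_1^r`, `≡ 0 mod 𝔪_j^r`; (4) `y = ∑ ε_i z_i`.
* `exists_near`: choose `n : ℕ` with `ordU (z i) < n` for all `i`; `weak_approx` gives `y`; `y / z i - 1 = ((y - z i)/π^n) * (π^n / z i)` and `π^n / z i ∈ 𝔪` (`HasOrd.nu_of_pos`).
* `exists_hasOrd`: `exists_near` with `z i = π i ^ k i`, `HasOrd.of_near`, `hasOrd_zpow`.
-/

noncomputable section

namespace Fermat.Agent.S36.Norm

namespace WA

section
variable {L : Type*} [Field L] {V : ValuationSubring L} {π : L}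

open Classical in
/-- the order of `z` (junk value `0` at `0`). -/
def ordU (hπ : IsUnif V π) (z : L) : ℤ :=
  if h : z = 0 then 0 else Classical.choose (hπ.exists_ord z h)

theorem hasOrd_ordU (hπ : IsUnif V π) {z : L} (hz : z ≠ 0) : HasOrd V π z (ordU hπ z) := by
  rw [ordU, dif_neg hz]
  exact Classical.choose_spec (hπ.exists_ord z hz)

theorem ordU_eq (hπ : IsUnif V π) {z : L} {k : ℤ} (h : HasOrd V π z k) : ordU hπ z = k :=
  (hasOrd_ordU hπ h.ne_zero).unique hπ.mem hπ.ne_zero h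

theorem ordU_mul (hπ : IsUnif V π) {y z : L} (hy : y ≠ 0) (hz : z ≠ 0) :
    ordU hπ (y * z) = ordU hπ y + ordU hπ z :=
  ordU_eq hπ ((hasOrd_ordU hπ hy).mul hπ.ne_zero (hasOrd_ordU hπ hz))

theorem le_ordU_add (hπ : IsUnif V π) {y z : L} (hy : y ≠ 0) (hz : z ≠ 0) (hyz : y + z ≠ 0)
    (h : ordU hπ y ≤ ordU hπ z) : ordU hπ y ≤ ordU hπ (y + z) := by
  have h1 : y / π ^ (ordU hπ y) ∈ V := (hasOrd_ordU hπ hy).2.1
  have h2 : z / π ^ (ordU hπ y) ∈ V :=
    ((hasOrd_ordU hπ hz).div hπ.ne_zero (hasOrd_zpow hπ.ne_zero _)).mem_of_nonneg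
      (nu_mem hπ.mem) hπ.ne_zero (by omega)
  have h3 : (y + z) / π ^ (ordU hπ y) ∈ V := by
    rw [add_div]; exact V.add_mem _ _ h1 h2
  have h4 := ((hasOrd_ordU hπ hyz).div hπ.ne_zero (hasOrd_zpow hπ.ne_zero _)).nonneg_of_mem
    hπ.mem hπ.ne_zero h3
  omega

open Classical in
/-- the underlying function of the absolute value. -/
def absFun (hπ : IsUnif V π) (z : L) : ℝ := if z = 0 then 0 else (1 / 2 : ℝ) ^ (ordU hπ z)

theorem absFun_zero (hπ : IsUnif V π) : absFun hπ 0 = 0 := by simp [absFun]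

theorem absFun_of_ne (hπ : IsUnif V π) {z : L} (hz : z ≠ 0) :
    absFun hπ z = (1 / 2 : ℝ) ^ (ordU hπ z) := by simp [absFun, hz]

theorem absFun_nonneg (hπ : IsUnif V π) (z : L) : 0 ≤ absFun hπ z := by
  by_cases hz : z = 0
  · rw [hz, absFun_zero]
  · rw [absFun_of_ne hπ hz]; positivity

theorem absFun_add_le_of_le (hπ : IsUnif V π) {y z : L} (hy : y ≠ 0) (hz : z ≠ 0)
    (hyz : y + z ≠ 0) (h : ordU hπ y ≤ ordU hπ z) :
    absFun hπ (y + z) ≤ absFun hπ y + absFun hπ z := by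
  have h1 : absFun hπ (y + z) ≤ absFun hπ y := by
    rw [absFun_of_ne hπ hyz, absFun_of_ne hπ hy]
    exact zpow_le_zpow_right_of_le_one₀ (by norm_num) (by norm_num) (le_ordU_add hπ hy hz hyz h)
  linarith [absFun_nonneg hπ z]

/-- the `π`-adic absolute value. -/
def absU (hπ : IsUnif V π) : AbsoluteValue L ℝ where
  toFun := absFun hπ
  map_mul' y z := by
    by_cases hy : y = 0
    · rw [hy, zero_mul, absFun_zero, zero_mul]
    by_cases hz : z = 0
    · rw [hz, mul_zero, absFun_zero, mul_zero]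
    rw [absFun_of_ne hπ hy, absFun_of_ne hπ hz, absFun_of_ne hπ (mul_ne_zero hy hz),
      ordU_mul hπ hy hz, zpow_add₀ (by norm_num)]
  nonneg' z := absFun_nonneg hπ z
  eq_zero' z := by
    constructor
    · intro h
      by_contra hz
      rw [absFun_of_ne hπ hz] at h
      exact absurd h (zpow_ne_zero _ (by norm_num))
    · intro h; rw [h, absFun_zero]
  add_le' y z := by
    by_cases hy : y = 0
    · rw [hy, zero_add, absFun_zero, zero_add]
    by_cases hz : z = 0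
    · rw [hz, add_zero, absFun_zero, add_zero]
    by_cases hyz : y + z = 0
    · rw [hyz, absFun_zero]
      exact add_nonneg (absFun_nonneg hπ y) (absFun_nonneg hπ z)
    rcases le_total (ordU hπ y) (ordU hπ z) with h | h
    · exact absFun_add_le_of_le hπ hy hz hyz h
    · have := absFun_add_le_of_le hπ hz hy (by rwa [add_comm]) h
      rwa [add_comm z y, add_comm (absFun hπ z)] at this

theorem absU_apply (hπ : IsUnif V π) (z : L) : absU hπ z = absFun hπ z := rfl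

theorem absU_le_one_iff (hπ : IsUnif V π) (z : L) : absU hπ z ≤ 1 ↔ z ∈ V := by
  rw [absU_apply]
  by_cases hz : z = 0
  · rw [hz, absFun_zero]
    exact ⟨fun _ => V.zero_mem, fun _ => zero_le_one⟩
  rw [absFun_of_ne hπ hz, zpow_le_one_iff_right_of_lt_one₀ (by norm_num) (by norm_num)]
  exact ⟨fun h => (hasOrd_ordU hπ hz).mem_of_nonneg (nu_mem hπ.mem) hπ.ne_zero h,
    fun h => (hasOrd_ordU hπ hz).nonneg_of_mem hπ.mem hπ.ne_zero h⟩

theorem absU_lt_one_iff (hπ : IsUnif V π) (z : L) : absU hπ z < 1 ↔ z ∈ V.nonunits := by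
  rw [absU_apply]
  by_cases hz : z = 0
  · rw [hz, absFun_zero]
    exact ⟨fun _ => nu_zero, fun _ => zero_lt_one⟩
  rw [absFun_of_ne hπ hz, zpow_lt_one_iff_right_of_lt_one₀ (by norm_num) (by norm_num)]
  exact ⟨fun h => (hasOrd_ordU hπ hz).nu_of_pos hπ.mem hπ.ne_zero h,
    fun h => (hasOrd_ordU hπ hz).pos_of_nu hπ.mem hπ.ne_zero h⟩

theorem absU_isNontrivial (hπ : IsUnif V π) : (absU hπ).IsNontrivial :=
  ⟨π, hπ.ne_zero, ne_of_lt ((absU_lt_one_iff hπ π).2 hπ.mem)⟩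

theorem eq_of_isEquiv {V' : ValuationSubring L} {π' : L} (hπ : IsUnif V π) (hπ' : IsUnif V' π')
    (h : (absU hπ).IsEquiv (absU hπ')) : V = V' := by
  ext z
  rw [← absU_le_one_iff hπ, ← absU_le_one_iff hπ']
  exact h.le_one_iff

/-- the basic estimate. -/
theorem key_mem (hπ : IsUnif V π) {c z : L} (hc : c ∈ V.nonunits) {r n N : ℕ}
    (hN : π ^ N * z ∈ V) (hr : n + N ≤ r) (hr1 : 1 ≤ r) :
    c ^ r / (1 + c ^ r) * z / π ^ n ∈ V := by
  have hπ0 := hπ.ne_zero
  have h1 : (c / π) ^ r ∈ V := V.pow_mem (hπ.div_mem hc) r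
  have hcr : c ^ r ∈ V.nonunits := by
    obtain ⟨s, rfl⟩ : ∃ s, r = s + 1 := ⟨r - 1, by omega⟩
    rw [pow_succ]
    exact nu_mul_left (V.pow_mem (nu_mem hc) s) hc
  have hone : One1 V (1 + c ^ r) := by
    unfold One1
    rwa [add_sub_cancel_left]
  have h2 : (1 + c ^ r)⁻¹ ∈ V := hone.inv_mem
  have h3 : π ^ (r - n - N) ∈ V := V.pow_mem (nu_mem hπ.mem) _
  have e : c ^ r / (1 + c ^ r) * z / π ^ n
      = (c / π) ^ r * (1 + c ^ r)⁻¹ * π ^ (r - n - N) * (π ^ N * z) := by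
    have e1 : π ^ r = π ^ (r - n - N) * π ^ N * π ^ n := by
      rw [← pow_add, ← pow_add]; congr 1; omega
    have h0 := hone.ne_zero
    rw [div_pow, e1]
    field_simp
  rw [e]
  exact V.mul_mem _ _ (V.mul_mem _ _ (V.mul_mem _ _ h1 h2) h3) hN

theorem exists_pow_mul_mem (hπ : IsUnif V π) (z : L) : ∃ N : ℕ, π ^ N * z ∈ V := by
  by_cases hz : z = 0
  · exact ⟨0, by rw [hz, mul_zero]; exact V.zero_mem⟩
  obtain ⟨k, hk⟩ := hπ.exists_ord z hz
  refine ⟨(-k).toNat, ?_⟩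
  have h1 : HasOrd V π (π ^ (-k).toNat) (((-k).toNat : ℕ) : ℤ) := by
    have := hasOrd_zpow (V := V) hπ.ne_zero (((-k).toNat : ℕ) : ℤ)
    rwa [zpow_natCast] at this
  exact (h1.mul hπ.ne_zero hk).mem_of_nonneg (nu_mem hπ.mem) hπ.ne_zero (by omega)

end

end WA

variable {L : Type*} [Field L] {ι : Type*} [Finite ι] (V : ι → ValuationSubring L) (π : ι → L)

open WA in
/-- **weak approximation** (additive form). -/
theorem weak_approx (hπ : ∀ i, IsUnif (V i) (π i)) (hV : Function.Injective V) (z : ι → L) (n : ℕ) :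
    ∃ y : L, ∀ i, (y - z i) / π i ^ n ∈ V i := by
  classical
  have := Fintype.ofFinite ι
  have hne : Pairwise fun i j => ¬ (absU (hπ i)).IsEquiv (absU (hπ j)) := fun i j hij h =>
    hij (hV (eq_of_isEquiv (hπ i) (hπ j) h))
  choose a ha using AbsoluteValue.exists_one_lt_lt_one_pi_of_not_isEquiv
    (fun i => absU_isNontrivial (hπ i)) hne
  have ha0 : ∀ i, a i ≠ 0 := fun i h => by
    have := (ha i).1
    rw [h, map_zero] at this
    linarith
  have hc : ∀ i, (a i)⁻¹ ∈ (V i).nonunits := fun i => by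
    rw [← absU_lt_one_iff (hπ i), map_inv₀]
    exact inv_lt_one_of_one_lt₀ (ha i).1
  have haj : ∀ i j, j ≠ i → a i ∈ (V j).nonunits := fun i j hj =>
    (absU_lt_one_iff (hπ j) _).1 ((ha i).2 j hj)
  choose N hN using fun p : ι × ι => exists_pow_mul_mem (hπ p.1) (z p.2)
  set r : ℕ := n + (∑ p, N p) + 1 with hr
  have hNr : ∀ p, n + N p ≤ r := fun p => by
    have := Finset.single_le_sum (f := N) (fun _ _ => Nat.zero_le _) (Finset.mem_univ p)
    omega
  refine ⟨∑ j, 1 / (1 + (a j)⁻¹ ^ r) * z j, fun i => ?_⟩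
  have e : (∑ j, 1 / (1 + (a j)⁻¹ ^ r) * z j - z i) / π i ^ n
      = ∑ j, (1 / (1 + (a j)⁻¹ ^ r) * z j - if j = i then z i else 0) / π i ^ n := by
    rw [← Finset.sum_div, Finset.sum_sub_distrib, Finset.sum_ite_eq' Finset.univ i,
      if_pos (Finset.mem_univ i)]
  rw [e]
  refine sum_mem fun j _ => ?_
  by_cases hji : j = i
  · subst hji
    rw [if_pos rfl]
    have h1 := key_mem (hπ j) (hc j) (hN (j, j)) (hNr (j, j)) (by omega)
    have hcr : (a j)⁻¹ ^ r ∈ (V j).nonunits := by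
      rw [hr, pow_succ]
      exact nu_mul_left ((V j).pow_mem (nu_mem (hc j)) _) (hc j)
    have hone : One1 (V j) (1 + (a j)⁻¹ ^ r) := by
      unfold One1
      rwa [add_sub_cancel_left]
    have h0 := hone.ne_zero
    have e2 : (1 / (1 + (a j)⁻¹ ^ r) * z j - z j) / π j ^ n
        = -((a j)⁻¹ ^ r / (1 + (a j)⁻¹ ^ r) * z j / π j ^ n) := by
      have h5 : π j ^ n ≠ 0 := pow_ne_zero _ (hπ j).ne_zero
      generalize (a j)⁻¹ ^ r = c at h0 ⊢
      field_simp
      ring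
    rw [e2]
    exact (V j).neg_mem _ h1
  · rw [if_neg hji, sub_zero]
    have h1 := key_mem (hπ i) (haj j i (Ne.symm hji)) (hN (i, j)) (hNr (i, j)) (by omega)
    have har : a j ^ r ∈ (V i).nonunits := by
      rw [hr, pow_succ]
      exact nu_mul_left ((V i).pow_mem (nu_mem (haj j i (Ne.symm hji))) _) (haj j i (Ne.symm hji))
    have hone : One1 (V i) (1 + a j ^ r) := by
      unfold One1
      rwa [add_sub_cancel_left]
    have h0 := hone.ne_zero
    have e2 : 1 / (1 + (a j)⁻¹ ^ r) * z j / π i ^ n = a j ^ r / (1 + a j ^ r) * z j / π i ^ n := by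
      have h3 : a j ^ r ≠ 0 := pow_ne_zero _ (ha0 j)
      have h4 : 1 / (1 + (a j)⁻¹ ^ r) = a j ^ r / (1 + a j ^ r) := by
        rw [inv_pow]
        have h5 : 1 + (a j ^ r)⁻¹ = (1 + a j ^ r) / a j ^ r := by
          field_simp
          ring
        rw [h5, one_div_div]
      rw [h4]
    rw [e2]
    exact h1

open WA in
/-- **weak approximation** (multiplicative form). -/
theorem exists_near (hπ : ∀ i, IsUnif (V i) (π i)) (hV : Function.Injective V) (z : ι → L)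
    (hz : ∀ i, z i ≠ 0) : ∃ y : L, ∀ i, Near (V i) y (z i) := by
  classical
  have := Fintype.ofFinite ι
  set n : ℕ := ∑ i, ((ordU (hπ i) (z i)).toNat + 1) with hn
  have hni : ∀ i, ordU (hπ i) (z i) < n := fun i => by
    have := Finset.single_le_sum (f := fun i => (ordU (hπ i) (z i)).toNat + 1)
      (fun _ _ => Nat.zero_le _) (Finset.mem_univ i)
    have h2 : (ordU (hπ i) (z i)).toNat + 1 ≤ n := this
    omega
  obtain ⟨y, hy⟩ := weak_approx V π hπ hV z n
  refine ⟨y, fun i => ⟨hz i, ?_⟩⟩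
  have h1 : HasOrd (V i) (π i) (π i ^ n) (n : ℤ) := by
    have := hasOrd_zpow (V := V i) (hπ i).ne_zero (n : ℤ)
    rwa [zpow_natCast] at this
  have h2 : π i ^ n / z i ∈ (V i).nonunits :=
    (h1.div (hπ i).ne_zero (hasOrd_ordU (hπ i) (hz i))).nu_of_pos (hπ i).mem (hπ i).ne_zero
      (by have := hni i; omega)
  have e : y / z i - 1 = (y - z i) / π i ^ n * (π i ^ n / z i) := by
    have h3 : π i ^ n ≠ 0 := pow_ne_zero _ (hπ i).ne_zero
    have h4 := hz i
    field_simp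
  unfold One1
  rw [e]
  exact nu_mul_left (hy i) h2

/-- prescribed orders. -/
theorem exists_hasOrd (hπ : ∀ i, IsUnif (V i) (π i)) (hV : Function.Injective V) (k : ι → ℤ) :
    ∃ y : L, ∀ i, HasOrd (V i) (π i) y (k i) := by
  obtain ⟨y, hy⟩ := exists_near V π hπ hV (fun i => π i ^ k i)
    (fun i => zpow_ne_zero _ (hπ i).ne_zero)
  exact ⟨y, fun i => (hasOrd_zpow (hπ i).ne_zero (k i)).of_near (hy i)⟩

end Fermat.Agent.S36.Norm
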