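import Fermat.Agent.S36.Norm.SplitCount
import Fermat.Agent.S36.Norm.Ext
import Fermat.Agent.S36.Norm.WA

set_option autoImplicit false

/-!
# S36 / Norm / SplitNorm : order and reduction of the norm in the `Split` situation   (task N-SplitNorm)

`Ω = AlgebraicClosure L`.  For a valuation subring `𝒪` of `Ω` with `𝒪.comap (algebraMap K1 Ω) = V'` put
`na 𝒪 = #{σ : L →ₐ[K1] Ω | 𝒪.comap σ = Va}`, `nb 𝒪 = #{σ | 𝒪.comap σ = Vb}`.

SKETCH.
1. every `σ` is of exactly one type (`comap_comap_algHom`, `Split.all`, `h.ne`): `na + nb = finrank K1 L ≤ q` (`card_algHom`).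
2. `key`: `HasOrd Va ϖ u a`, `HasOrd Vb t u b`, `HasOrd V' ϖ (N u) s` ⟹ `(q-1) s = (q-1) na a + nb b`.
   `γ := 𝒪.valuation ϖ`, `0 < γ < 1`.  `σ` of type a: `v(σ u) = γ^a` (`hasOrd_comap_iff`, `hasOrd_iff_val`, `σ ϖ = ϖ`).  Type b: `v(σ u) = v(σ t)^b`, `v (σ t)^(q-1) = γ` (`Split.ord_b`), so
   `v(σ u)^(q-1) = γ^b`.  `val_norm`: `γ^((q-1) s) = v(N u)^(q-1) = ∏_σ v(σ u)^(q-1) = γ^((q-1) a na + b nb)`; `zpow` is injective for `γ ≠ 0, γ < 1` (`zpow_right_injective₀`).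
3. test elements (`exists_hasOrd` for `![Va, Vb]`, `![ϖ, t]`): `ua` of orders `(1, 0)`, `ub` of orders `(0, 1)`; `N ua`, `N ub` have orders `sa`, `sb` (`h.unif.exists_ord`; the norm of a nonzero
   element is nonzero: `Algebra.norm_ne_zero_iff`).  So for EVERY `𝒪`: `na 𝒪 = sa`, `nb 𝒪 = (q-1) sb`.
4. `𝒪` extending `Va` (`exists_ext Va`; the canonical `σ₀ = IsScalarTower.toAlgHom K1 L Ω` is of type a): `sa ≥ 1`; `𝒪` extending `Vb`: `(q-1) sb ≥ 1`, so `sb ≥ 1`.  With `na + nb ≤ q`: `na = 1`, `nb = q - 1`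
   for every `𝒪`  (`count`).   In particular `finrank = q`.
5. `norm_ord`: `key` + `count` (+ existence of `s`, and `q - 1 ≠ 0`).   `norm_near`: `near_norm` with `y σ = ya` or `yb` according to the type; `∏ σ, y σ = ya^na * yb^nb` (`Finset.prod_ite`, `Finset.prod_const`).
-/

noncomputable section

namespace Fermat.Agent.S36.Norm

variable {K1 L : Type*} [Field K1] [CharZero K1] [Field L] [Algebra K1 L] {q : ℕ}
  {V' : ValuationSubring K1} {ϖ : K1} {Va Vb : ValuationSubring L} {t : L}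

open Classical in
/-- number of embeddings of type `a`. -/
def cntA [FiniteDimensional K1 L] (Va : ValuationSubring L)
    (𝒪 : ValuationSubring (AlgebraicClosure L)) : ℕ :=
  (Finset.univ.filter fun σ : L →ₐ[K1] AlgebraicClosure L => 𝒪.comap σ.toRingHom = Va).card

open Classical in
/-- number of embeddings not of type `a`. -/
def cntB [FiniteDimensional K1 L] (Va : ValuationSubring L)
    (𝒪 : ValuationSubring (AlgebraicClosure L)) : ℕ :=
  (Finset.univ.filter fun σ : L →ₐ[K1] AlgebraicClosure L => ¬ 𝒪.comap σ.toRingHom = Va).card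

theorem cntA_add_cntB [FiniteDimensional K1 L] (Va : ValuationSubring L)
    (𝒪 : ValuationSubring (AlgebraicClosure L)) :
    cntA (K1 := K1) Va 𝒪 + cntB (K1 := K1) Va 𝒪 = Module.finrank K1 L := by
  classical
  unfold cntA cntB
  rw [Finset.card_filter_add_card_filter_not, Finset.card_univ, card_algHom]

theorem Split.type_b (h : Split q V' ϖ Va Vb t) (hq : 2 ≤ q)
    {𝒪 : ValuationSubring (AlgebraicClosure L)}
    (h𝒪 : 𝒪.comap (algebraMap K1 (AlgebraicClosure L)) = V')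
    (σ : L →ₐ[K1] AlgebraicClosure L) (hσ : ¬ 𝒪.comap σ.toRingHom = Va) :
    𝒪.comap σ.toRingHom = Vb := by
  have := h.fin
  exact (h.all hq _ (by rw [comap_comap_algHom, h𝒪])).resolve_left hσ

theorem Split.key (h : Split q V' ϖ Va Vb t) (hq : 2 ≤ q) [FiniteDimensional K1 L]
    {𝒪 : ValuationSubring (AlgebraicClosure L)}
    (h𝒪 : 𝒪.comap (algebraMap K1 (AlgebraicClosure L)) = V') {u : L} {a b s : ℤ}
    (ha : HasOrd Va (algebraMap K1 L ϖ) u a) (hb : HasOrd Vb t u b)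
    (hs : HasOrd V' ϖ (Algebra.norm K1 u) s) :
    ((q : ℤ) - 1) * s = ((q : ℤ) - 1) * cntA (K1 := K1) Va 𝒪 * a + cntB (K1 := K1) Va 𝒪 * b := by
  classical
  set Ω := AlgebraicClosure L
  set γ := 𝒪.valuation (algebraMap K1 Ω ϖ) with hγ
  have hϖ0 : algebraMap K1 Ω ϖ ≠ 0 := by
    rw [ne_eq, map_eq_zero]; exact h.unif.ne_zero
  have hγ0 : γ ≠ 0 := (Valuation.ne_zero_iff _).2 hϖ0
  have hγ1 : γ < 1 := by
    have h1 : ϖ ∈ (𝒪.comap (algebraMap K1 Ω)).nonunits := by rw [h𝒪]; exact h.unif.mem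
    rw [nu_comap_iff, ValuationSubring.mem_nonunits_iff] at h1
    exact h1
  -- the norm
  have hN : 𝒪.valuation (algebraMap K1 Ω (Algebra.norm K1 u)) = γ ^ s := by
    rw [← h𝒪, hasOrd_comap_iff, hasOrd_iff_val hϖ0] at hs
    exact hs
  have hqq : ((q - 1 : ℕ) : ℤ) = (q : ℤ) - 1 := by
    rw [Nat.cast_sub (by omega)]; simp
  -- each factor
  have hfac : ∀ σ : L →ₐ[K1] Ω, 𝒪.valuation (σ u) ^ (q - 1) =
      if 𝒪.comap σ.toRingHom = Va then γ ^ (((q : ℤ) - 1) * a) else γ ^ b := by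
    intro σ
    split_ifs with hσ
    · have h1 := ha
      rw [← hσ, hasOrd_comap_iff] at h1
      have e : σ.toRingHom (algebraMap K1 L ϖ) = algebraMap K1 Ω ϖ := σ.commutes ϖ
      rw [e, hasOrd_iff_val hϖ0] at h1
      have e2 : σ.toRingHom u = σ u := rfl
      rw [e2] at h1
      rw [h1, ← zpow_natCast, ← zpow_mul, hqq, mul_comm]
    · have hσ' := h.type_b hq h𝒪 σ hσ
      have ht0 : σ.toRingHom t ≠ 0 := by
        rw [ne_eq, map_eq_zero]; exact h.t_ne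
      have h1 := hb
      rw [← hσ', hasOrd_comap_iff, hasOrd_iff_val ht0] at h1
      have h2 := h.ord_b hq
      rw [← hσ', hasOrd_comap_iff, hasOrd_iff_val ht0] at h2
      have e : σ.toRingHom (algebraMap K1 L ϖ) = algebraMap K1 Ω ϖ := σ.commutes ϖ
      rw [e] at h2
      have e2 : σ.toRingHom u = σ u := rfl
      rw [e2] at h1
      rw [h1, hγ, h2, ← zpow_natCast, ← zpow_mul, ← zpow_mul, hqq, mul_comm]
  have hprod : γ ^ (((q : ℤ) - 1) * s) =
      γ ^ (((q : ℤ) - 1) * cntA (K1 := K1) Va 𝒪 * a + cntB (K1 := K1) Va 𝒪 * b) := by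
    have h1 : γ ^ (((q : ℤ) - 1) * s) = (γ ^ s) ^ (q - 1) := by
      rw [← zpow_natCast, ← zpow_mul, hqq, mul_comm]
    rw [h1, ← hN, val_norm, ← Finset.prod_pow, Finset.prod_congr rfl (fun σ _ => hfac σ),
      Finset.prod_ite, Finset.prod_const, Finset.prod_const, zpow_add₀ hγ0]
    unfold cntA cntB
    congr 1
    · rw [← zpow_natCast, ← zpow_mul]
      congr 1
      ring
    · rw [← zpow_natCast, ← zpow_mul, mul_comm]
  exact zpow_right_injective₀ (zero_lt_iff.2 hγ0) hγ1.ne hprod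

theorem Split.exists_test (h : Split q V' ϖ Va Vb t) (hq : 2 ≤ q) (k l : ℤ) :
    ∃ y : L, HasOrd Va (algebraMap K1 L ϖ) y k ∧ HasOrd Vb t y l := by
  obtain ⟨y, hy⟩ := exists_hasOrd ![Va, Vb] ![algebraMap K1 L ϖ, t]
    (by
      intro i
      fin_cases i
      · exact h.unif_a hq
      · exact h.unif_b hq)
    (by
      intro i j hij
      fin_cases i <;> fin_cases j
      · rfl
      · exact absurd hij h.ne
      · exact absurd hij.symm h.ne
      · rfl) ![k, l]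
  exact ⟨y, hy 0, hy 1⟩

omit [CharZero K1] in
theorem comap_of_ext {V : ValuationSubring L} {𝒪 : ValuationSubring (AlgebraicClosure L)}
    (h𝒪 : 𝒪.comap (algebraMap L (AlgebraicClosure L)) = V)
    (hV : V.comap (algebraMap K1 L) = V') :
    𝒪.comap (algebraMap K1 (AlgebraicClosure L)) = V' := by
  rw [← hV, ← h𝒪]
  ext x
  simp only [ValuationSubring.mem_comap]
  rw [← IsScalarTower.algebraMap_apply]

theorem Split.norm_exists_ord (h : Split q V' ϖ Va Vb t) {u : L} (hu : u ≠ 0) :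
    ∃ s : ℤ, HasOrd V' ϖ (Algebra.norm K1 u) s := by
  have := h.fin
  exact h.unif.exists_ord _ (Algebra.norm_ne_zero_iff.2 hu)

theorem Split.count (h : Split q V' ϖ Va Vb t) (hq : 2 ≤ q) [FiniteDimensional K1 L]
    {𝒪 : ValuationSubring (AlgebraicClosure L)}
    (h𝒪 : 𝒪.comap (algebraMap K1 (AlgebraicClosure L)) = V') :
    cntA (K1 := K1) Va 𝒪 = 1 ∧ cntB (K1 := K1) Va 𝒪 = q - 1 := by
  classical
  obtain ⟨ua, hua, hua'⟩ := h.exists_test hq 1 0
  obtain ⟨ub, hub, hub'⟩ := h.exists_test hq 0 1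
  obtain ⟨sa, hsa⟩ := h.norm_exists_ord hua.ne_zero
  obtain ⟨sb, hsb⟩ := h.norm_exists_ord hub.ne_zero
  have hq1 : (0 : ℤ) < (q : ℤ) - 1 := by
    have : (2 : ℤ) ≤ q := by exact_mod_cast hq
    omega
  -- for every `𝒪`
  have hA : ∀ {𝒪 : ValuationSubring (AlgebraicClosure L)},
      𝒪.comap (algebraMap K1 (AlgebraicClosure L)) = V' → (cntA (K1 := K1) Va 𝒪 : ℤ) = sa := by
    intro 𝒪 h𝒪
    have := h.key hq h𝒪 hua hua' hsa
    have h2 : ((q : ℤ) - 1) * sa = ((q : ℤ) - 1) * cntA (K1 := K1) Va 𝒪 := by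
      rw [this]; ring
    exact (mul_left_cancel₀ hq1.ne' h2).symm
  have hB : ∀ {𝒪 : ValuationSubring (AlgebraicClosure L)},
      𝒪.comap (algebraMap K1 (AlgebraicClosure L)) = V' →
        (cntB (K1 := K1) Va 𝒪 : ℤ) = ((q : ℤ) - 1) * sb := by
    intro 𝒪 h𝒪
    have := h.key hq h𝒪 hub hub' hsb
    rw [this]; ring
  -- lower bounds
  have hsa1 : 1 ≤ sa := by
    obtain ⟨𝒪a, h𝒪a⟩ := exists_ext Va
    rw [← hA (comap_of_ext h𝒪a h.comap_a)]
    have : 0 < cntA (K1 := K1) Va 𝒪a := by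
      unfold cntA
      rw [Finset.card_pos]
      exact ⟨IsScalarTower.toAlgHom K1 L (AlgebraicClosure L),
        Finset.mem_filter.2 ⟨Finset.mem_univ _, h𝒪a⟩⟩
    exact_mod_cast this
  have hsb1 : 1 ≤ sb := by
    obtain ⟨𝒪b, h𝒪b⟩ := exists_ext Vb
    have h1 := hB (comap_of_ext h𝒪b h.comap_b)
    have : 0 < cntB (K1 := K1) Va 𝒪b := by
      unfold cntB
      rw [Finset.card_pos]
      refine ⟨IsScalarTower.toAlgHom K1 L (AlgebraicClosure L),
        Finset.mem_filter.2 ⟨Finset.mem_univ _, ?_⟩⟩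
      intro hc
      exact h.ne (hc.symm.trans h𝒪b)
    have h2 : (0 : ℤ) < ((q : ℤ) - 1) * sb := by rw [← h1]; exact_mod_cast this
    have := (mul_pos_iff_of_pos_left hq1).1 h2
    omega
  have hsum := cntA_add_cntB (K1 := K1) Va 𝒪
  have hle := h.finrank_le
  have h1 := hA h𝒪
  have h2 := hB h𝒪
  have h3 : ((q : ℤ) - 1) * 1 ≤ ((q : ℤ) - 1) * sb := mul_le_mul_of_nonneg_left hsb1 hq1.le
  have h4 : (cntA (K1 := K1) Va 𝒪 : ℤ) + cntB (K1 := K1) Va 𝒪 ≤ q := by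
    have : cntA (K1 := K1) Va 𝒪 + cntB (K1 := K1) Va 𝒪 ≤ q := by omega
    exact_mod_cast this
  constructor
  · have : (cntA (K1 := K1) Va 𝒪 : ℤ) = 1 := by omega
    exact_mod_cast this
  · have : (cntB (K1 := K1) Va 𝒪 : ℤ) = (q : ℤ) - 1 := by omega
    omega

omit [CharZero K1] in
theorem Split.exists_over (h : Split q V' ϖ Va Vb t) :
    ∃ 𝒪 : ValuationSubring (AlgebraicClosure L),
      𝒪.comap (algebraMap K1 (AlgebraicClosure L)) = V' := by
  obtain ⟨𝒪a, h𝒪a⟩ := exists_ext Va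
  exact ⟨𝒪a, comap_of_ext h𝒪a h.comap_a⟩

theorem Split.finrank_eq (h : Split q V' ϖ Va Vb t) (hq : 2 ≤ q) : Module.finrank K1 L = q := by
  have := h.fin
  obtain ⟨𝒪, h𝒪⟩ := h.exists_over
  obtain ⟨h1, h2⟩ := h.count hq h𝒪
  rw [← cntA_add_cntB (K1 := K1) Va 𝒪, h1, h2]
  omega

/-- `v'(N u) = v_a(u) + v_b(u)`. -/
theorem Split.norm_ord (h : Split q V' ϖ Va Vb t) (hq : 2 ≤ q) {u : L} {a b : ℤ}
    (ha : HasOrd Va (algebraMap K1 L ϖ) u a) (hb : HasOrd Vb t u b) :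
    HasOrd V' ϖ (Algebra.norm K1 u) (a + b) := by
  have := h.fin
  obtain ⟨𝒪, h𝒪⟩ := h.exists_over
  obtain ⟨h1, h2⟩ := h.count hq h𝒪
  obtain ⟨s, hs⟩ := h.norm_exists_ord ha.ne_zero
  have hk := h.key hq h𝒪 ha hb hs
  rw [h1, h2] at hk
  have hq1 : (0 : ℤ) < (q : ℤ) - 1 := by
    have : (2 : ℤ) ≤ q := by exact_mod_cast hq
    omega
  have hqq : ((q - 1 : ℕ) : ℤ) = (q : ℤ) - 1 := by
    rw [Nat.cast_sub (by omega)]; simp
  rw [hqq] at hk
  have h3 : ((q : ℤ) - 1) * s = ((q : ℤ) - 1) * (a + b) := by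
    rw [hk]; push_cast; ring
  rw [← mul_left_cancel₀ hq1.ne' h3]
  exact hs

/-- `N u ≡ y_a * y_b ^ (q - 1)`. -/
theorem Split.norm_near (h : Split q V' ϖ Va Vb t) (hq : 2 ≤ q) {u : L} {ya yb : K1}
    (ha : Near Va u (algebraMap K1 L ya)) (hb : Near Vb u (algebraMap K1 L yb)) :
    Near V' (Algebra.norm K1 u) (ya * yb ^ (q - 1)) := by
  classical
  have := h.fin
  obtain ⟨𝒪, h𝒪⟩ := h.exists_over
  obtain ⟨h1, h2⟩ := h.count hq h𝒪
  have hn := near_norm 𝒪 u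
    (fun σ : L →ₐ[K1] AlgebraicClosure L => if 𝒪.comap σ.toRingHom = Va then ya else yb)
    (by
      intro σ
      split_ifs with hσ
      · rw [hσ]; exact ha
      · rw [h.type_b hq h𝒪 σ hσ]; exact hb)
  rw [h𝒪, Finset.prod_ite, Finset.prod_const, Finset.prod_const] at hn
  unfold cntA at h1
  unfold cntB at h2
  rw [h1, h2, pow_one] at hn
  exact hn

end Fermat.Agent.S36.Norm
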